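/-
S41 block A, node N1 (helper72): an irreducible `𝔽_p`-representation on which every `σ` satisfies
`(σ - 1)(σ - χ σ) = 0` has at most `p` elements.
-/
import Mathlib

set_option autoImplicit false

namespace Fermat.Agent.S41.A

theorem card_le_of_quadratic {p : ℕ} [Fact p.Prime] {G V : Type*} [Group G] [AddCommGroup V]
    [Module (ZMod p) V] [Finite V] [DistribMulAction G V] [SMulCommClass G (ZMod p) V]
    (χ : G →* (ZMod p)ˣ)
    (hquad : ∀ (σ : G) (v : V),
      σ • σ • v - ((1 : ZMod p) + (χ σ : ZMod p)) • σ • v + (χ σ : ZMod p) • v = 0)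
    (hirr : ∀ N : Submodule (ZMod p) V, (∀ (σ : G), ∀ x ∈ N, σ • x ∈ N) → N = ⊥ ∨ N = ⊤) :
    Nat.card V ≤ p := by
  have hp : p.Prime := Fact.out
  rcases subsingleton_or_nontrivial V with hV | hV
  · rw [Nat.card_of_subsingleton (0 : V)]
    exact hp.one_le
  -- `p` kills `V`
  have hpV : ∀ v : V, p • v = 0 := fun v => by
    rw [← Nat.cast_smul_eq_nsmul (ZMod p), ZMod.natCast_self, zero_smul]
  -- elements of the kernel of `χ` are unipotent
  have hpow : ∀ s ∈ χ.ker, ∀ (k : ℕ) (v : V), s ^ k • v = v + k • (s • v - v) := by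
    intro s hs k
    induction k with
    | zero => intro v; simp
    | succ k ih =>
      intro v
      have h := hquad s v
      rw [MonoidHom.mem_ker.1 hs] at h
      simp only [Units.val_one, one_smul, add_smul] at h
      have h2 : s • s • v - s • v = s • v - v := by
        have e : s • s • v - s • v - (s • v - v) = s • s • v - (s • v + s • v) + v := by abel
        exact sub_eq_zero.1 (e.trans h)
      rw [pow_succ, mul_smul, ih (s • v), h2, succ_nsmul]
      abel
  -- the image of the kernel in the permutations of `V` is a `p`-group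
  let P : Subgroup (Equiv.Perm V) := (MulAction.toPermHom χ.ker V).range
  have hP : IsPGroup p P := by
    rintro ⟨_, ⟨s, rfl⟩⟩
    refine ⟨1, Subtype.ext ?_⟩
    rw [pow_one]
    show (MulAction.toPermHom χ.ker V s) ^ p = 1
    rw [← map_pow]
    ext v
    show ((s : G) ^ p) • v = v
    rw [hpow s s.2 p v, hpV, add_zero]
  have hdvd : p ∣ Nat.card V := by
    obtain ⟨v, hv⟩ := exists_ne (0 : V)
    have h1 : addOrderOf v ∣ p := addOrderOf_dvd_of_nsmul_eq_zero (hpV v)
    rcases (Nat.dvd_prime hp).1 h1 with h | h
    · exact absurd (AddMonoid.addOrderOf_eq_one_iff.1 h) hv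
    · rw [← h]; exact addOrderOf_dvd_natCard v
  obtain ⟨b, hb, hb0⟩ := hP.exists_fixed_point_of_prime_dvd_card_of_fixed_point V hdvd (a := 0) (by
    rintro ⟨_, ⟨s, rfl⟩⟩
    exact smul_zero s)
  -- the fixed vectors of the kernel
  let N : Submodule (ZMod p) V :=
    { carrier := {v | ∀ s ∈ χ.ker, s • v = v}
      add_mem' := fun {a b} ha hb s hs => by rw [smul_add, ha s hs, hb s hs]
      zero_mem' := fun s _ => smul_zero s
      smul_mem' := fun c v hv s hs => by rw [smul_comm, hv s hs] }
  have hNstab : ∀ (σ : G), ∀ x ∈ N, σ • x ∈ N := by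
    intro σ x hx s hs
    have h1 : σ⁻¹ * s * σ ∈ χ.ker := by
      rw [MonoidHom.mem_ker] at hs ⊢
      simp [hs]
    have h2 := hx _ h1
    rw [mul_smul, mul_smul, inv_smul_eq_iff] at h2
    exact h2
  have hN : N = ⊤ := by
    rcases hirr N hNstab with h | h
    · exfalso
      have hbN : b ∈ N := fun s hs => hb ⟨_, ⟨⟨s, hs⟩, rfl⟩⟩
      rw [h, Submodule.mem_bot] at hbN
      exact hb0 hbN.symm
    · exact h
  have htriv : ∀ s ∈ χ.ker, ∀ v : V, s • v = v := fun s hs v => by
    have hv : v ∈ N := hN ▸ Submodule.mem_top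
    exact hv s hs
  have hcomm : ∀ (s t : G) (v : V), s • t • v = t • s • v := by
    intro s t v
    have h1 : (t * s)⁻¹ * (s * t) ∈ χ.ker := by
      rw [MonoidHom.mem_ker, map_mul, map_inv, map_mul, map_mul, mul_comm (χ t) (χ s),
        inv_mul_cancel]
    have h2 := htriv _ h1 v
    rw [mul_smul, inv_smul_eq_iff, mul_smul, mul_smul] at h2
    exact h2
  -- every element acts by a scalar
  have hscal : ∀ s : G, ∃ c : ZMod p, ∀ v : V, s • v = c • v := by
    intro s
    let Ns : Submodule (ZMod p) V :=
      { carrier := {v | s • v = v}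
        add_mem' := fun {a b} ha hb => by
          show s • (a + b) = a + b
          rw [smul_add, ha, hb]
        zero_mem' := smul_zero s
        smul_mem' := fun c v hv => by
          show s • c • v = c • v
          rw [smul_comm, hv] }
    rcases hirr Ns (fun σ x hx => by
      show s • σ • x = σ • x
      rw [hcomm, hx]) with h | h
    · refine ⟨(χ s : ZMod p), fun v => ?_⟩
      have hw : s • v - (χ s : ZMod p) • v ∈ Ns := by
        show s • (s • v - (χ s : ZMod p) • v) = s • v - (χ s : ZMod p) • v
        have h3 := hquad s v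
        rw [add_smul, one_smul] at h3
        rw [smul_sub, smul_comm s (χ s : ZMod p) v]
        have e : s • s • v - (χ s : ZMod p) • s • v - (s • v - (χ s : ZMod p) • v) =
            s • s • v - (s • v + (χ s : ZMod p) • s • v) + (χ s : ZMod p) • v := by abel
        exact sub_eq_zero.1 (e.trans h3)
      rw [h, Submodule.mem_bot, sub_eq_zero] at hw
      exact hw
    · refine ⟨1, fun v => ?_⟩
      have hv : v ∈ Ns := h ▸ Submodule.mem_top
      rw [one_smul]
      exact hv
  -- hence every line is stable
  obtain ⟨v, hv⟩ := exists_ne (0 : V)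
  have hspan : Submodule.span (ZMod p) {v} = ⊤ := by
    rcases hirr (Submodule.span (ZMod p) {v}) (fun σ x hx => by
      obtain ⟨c, hc⟩ := hscal σ
      rw [hc]
      exact Submodule.smul_mem _ _ hx) with h | h
    · exact absurd (Submodule.span_singleton_eq_bot.1 h) hv
    · exact h
  have hsurj : Function.Surjective (fun c : ZMod p => c • v) := by
    intro w
    have hw : w ∈ Submodule.span (ZMod p) {v} := hspan ▸ Submodule.mem_top
    exact Submodule.mem_span_singleton.1 hw
  calc Nat.card V ≤ Nat.card (ZMod p) := Nat.card_le_card_of_surjective _ hsurj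
    _ = p := Nat.card_zmod p

end Fermat.Agent.S41.A
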