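import Mathlib

/-!
# S41, block A (non-Eisenstein prime from irreducibility of `E[p]`): definitions
(owner: helper188)
-/

set_option autoImplicit false

namespace Fermat.Agent.S41.A

/-- `W₂` is the reduction of `W₁` modulo the maximal ideal of the valuation ring `A`. -/
structure IsRed {K : Type*} [Field K] (A : ValuationSubring K) (W₁ : WeierstrassCurve K)
    (W₂ : WeierstrassCurve (IsLocalRing.ResidueField A)) : Prop where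
  a₁ : ∃ h : W₁.a₁ ∈ A, IsLocalRing.residue A ⟨W₁.a₁, h⟩ = W₂.a₁
  a₂ : ∃ h : W₁.a₂ ∈ A, IsLocalRing.residue A ⟨W₁.a₂, h⟩ = W₂.a₂
  a₃ : ∃ h : W₁.a₃ ∈ A, IsLocalRing.residue A ⟨W₁.a₃, h⟩ = W₂.a₃
  a₄ : ∃ h : W₁.a₄ ∈ A, IsLocalRing.residue A ⟨W₁.a₄, h⟩ = W₂.a₄
  a₆ : ∃ h : W₁.a₆ ∈ A, IsLocalRing.residue A ⟨W₁.a₆, h⟩ = W₂.a₆

end Fermat.Agent.S41.A
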