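import Mathlib

/-!
# S41, block A, node N2c: a generic fibre of `a / b` has `max (deg a) (deg b)` points
(owner helper217; Mathlib only)
-/

set_option autoImplicit false

open Polynomial

namespace Fermat.Agent.S41.A

theorem Fibre_natDegree_eq_zero_of_dvd_derivative {k : Type*} [Field k] [CharZero k] {b : k[X]}
    (hb : b ∣ derivative b) : b.natDegree = 0 := by
  by_contra h
  have h0 : derivative b ≠ 0 := fun h0 => h (derivative_eq_zero.mp h0)
  have h1 := natDegree_le_of_dvd hb h0
  have h2 := natDegree_derivative_lt h
  omega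

/-- the Wronskian of two coprime polynomials, not both constant, does not vanish -/
theorem Fibre_wronskian_ne_zero {k : Type*} [Field k] [CharZero k] (a b : k[X])
    (hab : IsCoprime a b) (hd : 0 < max a.natDegree b.natDegree) :
    derivative a * b - a * derivative b ≠ 0 := by
  intro hw
  have hw' : derivative a * b = a * derivative b := sub_eq_zero.mp hw
  have ha : a ∣ derivative a := hab.dvd_of_dvd_mul_right (hw' ▸ dvd_mul_right a _)
  have hb : b ∣ derivative b := hab.symm.dvd_of_dvd_mul_left (hw' ▸ dvd_mul_left b _)
  rw [Fibre_natDegree_eq_zero_of_dvd_derivative ha,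
    Fibre_natDegree_eq_zero_of_dvd_derivative hb] at hd
  simp at hd

theorem Fibre_eval_ne_zero {k : Type*} [Field k] {a b : k[X]} (hab : IsCoprime a b) {c t : k}
    (h : a.eval t = c * b.eval t) : b.eval t ≠ 0 := by
  intro hb
  obtain ⟨u, v, huv⟩ := hab
  have := congrArg (eval t) huv
  rw [eval_add, eval_mul, eval_mul, h, hb] at this
  simp at this

/-- N2c (Mathlib only) -/
theorem exists_fibre {k : Type*} [Field k] [IsAlgClosed k] [CharZero k] (a b : k[X])
    (hab : IsCoprime a b) (hd : 0 < max a.natDegree b.natDegree) :
    ∃ (c : k) (S : Finset k), S.card = max a.natDegree b.natDegree ∧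
      ∀ t ∈ S, b.eval t ≠ 0 ∧ a.eval t = c * b.eval t := by
  classical
  set d := max a.natDegree b.natDegree with hddef
  set w := derivative a * b - a * derivative b with hwdef
  have hw : w ≠ 0 := Fibre_wronskian_ne_zero a b hab hd
  obtain ⟨c, hc⟩ := Infinite.exists_notMem_finset
    (insert (a.coeff d / b.coeff d) (w.roots.toFinset.image fun t => a.eval t / b.eval t))
  rw [Finset.mem_insert, not_or] at hc
  obtain ⟨hc1, hc2⟩ := hc
  set f := a - C c * b with hfdef
  have hfeval : ∀ t, f.eval t = 0 ↔ a.eval t = c * b.eval t := by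
    intro t
    rw [hfdef, eval_sub, eval_mul, eval_C, sub_eq_zero]
  -- the degree of `f`
  have hcoeff : f.coeff d ≠ 0 := by
    rw [hfdef, coeff_sub, coeff_C_mul]
    intro h0
    have h0' : a.coeff d = c * b.coeff d := sub_eq_zero.mp h0
    by_cases hbd : b.coeff d = 0
    · rw [hbd, mul_zero] at h0'
      rcases max_choice a.natDegree b.natDegree with h | h
      · rw [hddef, h] at h0' hd
        have : a = 0 := leadingCoeff_eq_zero.mp h0'
        rw [this] at hd
        simp at hd
      · rw [hddef, h] at hbd hd
        have : b = 0 := leadingCoeff_eq_zero.mp hbd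
        rw [this] at hd
        simp at hd
    · exact hc1 (by rw [h0', mul_div_assoc, div_self hbd, mul_one])
  have hdeg : f.natDegree = d := by
    refine natDegree_eq_of_le_of_coeff_ne_zero ?_ hcoeff
    refine (natDegree_sub_le _ _).trans (max_le_max le_rfl (natDegree_C_mul_le _ _))
  have hf0 : f ≠ 0 := by
    rintro h
    rw [h] at hcoeff
    simp at hcoeff
  -- `f` is separable
  have hsep : f.Separable := by
    rw [Polynomial.Separable]
    refine (isCoprime_iff_aeval_ne_zero_of_isAlgClosed k k f (derivative f)).mpr ?_
    intro t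
    by_contra hcon
    rw [not_or, not_not, not_not, coe_aeval_eq_eval] at hcon
    obtain ⟨h1, h2⟩ := hcon
    have h1' := (hfeval t).mp h1
    have hbt := Fibre_eval_ne_zero hab h1'
    have h2' : (derivative a).eval t = c * (derivative b).eval t := by
      rw [hfdef, derivative_sub, derivative_C_mul, eval_sub, eval_mul, eval_C, sub_eq_zero] at h2
      exact h2
    apply hc2
    rw [Finset.mem_image]
    refine ⟨t, ?_, ?_⟩
    · rw [Multiset.mem_toFinset, mem_roots hw, IsRoot.def, hwdef, eval_sub, eval_mul, eval_mul,
        h1', h2']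
      ring
    · rw [h1', mul_div_assoc, div_self hbt, mul_one]
  refine ⟨c, f.roots.toFinset, ?_, ?_⟩
  · rw [Multiset.toFinset_card_of_nodup (nodup_roots hsep), IsAlgClosed.card_roots_eq_natDegree,
      hdeg]
  · intro t ht
    rw [Multiset.mem_toFinset, mem_roots hf0, IsRoot.def] at ht
    have h1 := (hfeval t).mp ht
    exact ⟨Fibre_eval_ne_zero hab h1, h1⟩

end Fermat.Agent.S41.A
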