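import Mathlib
import Fermat.Prelude.Def_FLTPrelim_ModularRep
import Fermat.Prelude.Def_EllipticCurve_FrobeniusTrace
import Fermat.Agent.Lib.FrobCH.Main
import Fermat.Agent.S41.A.Defs

/-!
# S41, block A, node N3b (owner helper289): Cayley-Hamilton for Frobenius elements on the torsion
points over `ℚ̄`, relative to the existence of the reduction map (node N3a-2, `exists_red`), which
enters as the hypothesis `hred`.  The final statement `frobenius_CH` is in `FrobCH.lean`.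
-/

set_option autoImplicit false

open Polynomial WeierstrassCurve WeierstrassCurve.Affine WeierstrassCurve.Affine.Point

namespace Fermat.Agent.S41.A

open Fermat.Agent.Lib.FrobCH

local notation "Qb" => AlgebraicClosure ℚ

/-- the residue field of a valuation ring above `ℓ` has characteristic `ℓ` -/
theorem FrobCH_charP (A : ValuationSubring Qb) (ℓ : ℕ) (hℓ : ℓ.Prime)
    (hA : A.LiesOverPrime ℓ) : CharP (IsLocalRing.ResidueField A) ℓ := by
  rw [CharP.charP_iff_prime_eq_zero hℓ]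
  have h1 : ((ℓ : A) : Qb) ∈ A.nonunits := by
    have h0 : (ℓ : Qb) ∈ A.nonunits := hA
    simpa using h0
  have h2 : (ℓ : A) ∈ IsLocalRing.maximalIdeal A := by
    rw [← ValuationSubring.coe_mem_nonunits_iff]
    exact h1
  have h3 : IsLocalRing.residue A (ℓ : A) = 0 := (IsLocalRing.residue_eq_zero_iff _).mpr h2
  rw [← h3, map_natCast]

/-- an integer prime to the residue characteristic is a unit -/
theorem FrobCH_valuation_natCast (A : ValuationSubring Qb) (ℓ : ℕ) (hℓ : ℓ.Prime)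
    (hA : A.LiesOverPrime ℓ) {p : ℕ} (hℓp : ¬ ℓ ∣ p) : A.valuation (p : Qb) = 1 := by
  have := FrobCH_charP A ℓ hℓ hA
  have h1 : IsLocalRing.residue A (p : A) ≠ 0 := by
    rw [map_natCast, Ne, CharP.cast_eq_zero_iff (IsLocalRing.ResidueField A) ℓ]
    exact hℓp
  have h2 : IsUnit (p : A) := by
    by_contra h
    exact h1 ((IsLocalRing.residue_eq_zero_iff _).mpr ((IsLocalRing.mem_maximalIdeal _).mpr h))
  have h3 := (A.valuation_eq_one_iff (p : A)).mp h2
  simpa using h3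

/-- the reduction of an integer -/
theorem FrobCH_residue_int (A : ValuationSubring Qb) (ℓ : ℕ)
    [Algebra (ZMod ℓ) (IsLocalRing.ResidueField A)] (z : ℤ) :
    ∃ h : algebraMap ℚ Qb (Int.castRingHom ℚ z) ∈ A,
      IsLocalRing.residue A ⟨algebraMap ℚ Qb (Int.castRingHom ℚ z), h⟩ =
        algebraMap (ZMod ℓ) (IsLocalRing.ResidueField A) (Int.castRingHom (ZMod ℓ) z) := by
  have h0 : algebraMap ℚ Qb (Int.castRingHom ℚ z) = ((z : A) : Qb) := by simp
  have h : algebraMap ℚ Qb (Int.castRingHom ℚ z) ∈ A := by rw [h0]; exact (z : A).2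
  refine ⟨h, ?_⟩
  have h1 : (⟨algebraMap ℚ Qb (Int.castRingHom ℚ z), h⟩ : A) = (z : A) := Subtype.ext h0
  rw [h1, map_intCast, eq_intCast, map_intCast]

/-- a Frobenius element acts on the residue field by the `ℓ`-th power -/
theorem FrobCH_residue_frob (A : ValuationSubring Qb) {φ : Qb ≃ₐ[ℚ] Qb} {ℓ : ℕ}
    (hφ : A.IsFrobeniusAt φ ℓ) {x : Qb} (hx : x ∈ A) (hx' : φ x ∈ A) :
    IsLocalRing.residue A ⟨φ x, hx'⟩ = IsLocalRing.residue A ⟨x, hx⟩ ^ ℓ := by
  obtain ⟨hd, hfrob⟩ := hφ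
  have h1 := hfrob (IsLocalRing.residue A ⟨x, hx⟩)
  rw [← IsLocalRing.ResidueField.residue_smul] at h1
  rw [← h1]
  rfl

theorem FrobCH_some_congr {R : Type*} [CommRing R] {W : Affine R} {x y x' y' : R}
    (h : W.Nonsingular x y) (h' : W.Nonsingular x' y') (hx : x = x') (hy : y = y') :
    Point.some x y h = Point.some x' y' h' := by
  subst hx hy
  rfl

/-- N3b, relative to the existence of the reduction map -/
theorem FrobCH_core (W : WeierstrassCurve ℤ) {p ℓ : ℕ} (hℓ : ℓ.Prime)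
    (h5 : 5 ≤ ℓ) (hgood : W.IsGoodPrimeFor ℓ)
    (A : ValuationSubring (AlgebraicClosure ℚ)) (hA : A.LiesOverPrime ℓ)
    (φ : AlgebraicClosure ℚ ≃ₐ[ℚ] AlgebraicClosure ℚ) (hφ : A.IsFrobeniusAt φ ℓ)
    [DecidableEq (IsLocalRing.ResidueField A)]
    (hred : ∀ W₂ : WeierstrassCurve (IsLocalRing.ResidueField A),
      IsRed A ((W.map (Int.castRingHom ℚ)).baseChange (AlgebraicClosure ℚ)) W₂ → W₂.Δ ≠ 0 →
      ∃ r : Submodule.torsionBy ℤ ((W.map (Int.castRingHom ℚ))⁄(AlgebraicClosure ℚ)).Point (p : ℤ)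
          →+ W₂.toAffine.Point,
        Function.Injective r ∧
        ∀ (x y : AlgebraicClosure ℚ)
          (h : ((W.map (Int.castRingHom ℚ))⁄(AlgebraicClosure ℚ)).Nonsingular x y)
          (hP : (Point.some x y h : ((W.map (Int.castRingHom ℚ))⁄(AlgebraicClosure ℚ)).Point) ∈
            Submodule.torsionBy ℤ ((W.map (Int.castRingHom ℚ))⁄(AlgebraicClosure ℚ)).Point
              (p : ℤ)),
          ∃ (hx : x ∈ A) (hy : y ∈ A)
            (h' : W₂.toAffine.Nonsingular (IsLocalRing.residue A ⟨x, hx⟩)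
              (IsLocalRing.residue A ⟨y, hy⟩)),
            r ⟨Point.some x y h, hP⟩ = Point.some _ _ h')
    (P : ((W.map (Int.castRingHom ℚ))⁄(AlgebraicClosure ℚ)).Point) (hP : p • P = 0) :
    φ • φ • P - W.apOfModel ℓ • φ • P + (ℓ : ℤ) • P = 0 := by
  have : Fact ℓ.Prime := ⟨hℓ⟩
  have : CharP (IsLocalRing.ResidueField A) ℓ := FrobCH_charP A ℓ hℓ hA
  let _ : Algebra (ZMod ℓ) (IsLocalRing.ResidueField A) := ZMod.algebra _ ℓ
  have hW : IsRed A ((W.map (Int.castRingHom ℚ)).baseChange Qb)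
      ((W.reductionMod ℓ).baseChange (IsLocalRing.ResidueField A)) :=
    ⟨FrobCH_residue_int A ℓ W.a₁, FrobCH_residue_int A ℓ W.a₂, FrobCH_residue_int A ℓ W.a₃,
      FrobCH_residue_int A ℓ W.a₄, FrobCH_residue_int A ℓ W.a₆⟩
  have hΔ0 : (W.reductionMod ℓ).Δ ≠ 0 := by
    rw [WeierstrassCurve.reductionMod, WeierstrassCurve.map_Δ, eq_intCast, Ne,
      ZMod.intCast_zmod_eq_zero_iff_dvd]
    exact hgood
  have hΔ : ((W.reductionMod ℓ).baseChange (IsLocalRing.ResidueField A)).Δ ≠ 0 := by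
    rw [WeierstrassCurve.baseChange, WeierstrassCurve.map_Δ]
    exact (_root_.map_ne_zero _).mpr hΔ0
  obtain ⟨r, hr, hrs⟩ := hred _ hW hΔ
  -- equivariance
  have heq : ∀ Q : Submodule.torsionBy ℤ ((W.map (Int.castRingHom ℚ))⁄Qb).Point (p : ℤ),
      r (φ • Q) = frob (W.reductionMod ℓ) (IsLocalRing.ResidueField A) (r Q) := by
    rintro ⟨Q, hQ⟩
    rcases Q with _ | ⟨x, y, h⟩
    · have h0 : (⟨Point.zero, hQ⟩ :
          Submodule.torsionBy ℤ ((W.map (Int.castRingHom ℚ))⁄Qb).Point (p : ℤ)) = 0 := rfl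
      rw [h0, smul_zero, _root_.map_zero, _root_.map_zero]
    · have hφQ := smul_mem_torsionBy (S := ℚ) φ hQ
      have h2 : ((W.map (Int.castRingHom ℚ))⁄Qb).Nonsingular (φ x) (φ y) :=
        (baseChange_nonsingular _ φ.toAlgHom.injective _ _).mpr h
      have e1 : φ • (⟨Point.some x y h, hQ⟩ :
          Submodule.torsionBy ℤ ((W.map (Int.castRingHom ℚ))⁄Qb).Point (p : ℤ)) =
          ⟨Point.some (φ x) (φ y) h2, hφQ⟩ := rfl
      obtain ⟨hx, hy, h', e2⟩ := hrs x y h hQ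
      obtain ⟨hx', hy', h'', e3⟩ := hrs (φ x) (φ y) h2 hφQ
      rw [e1, e2, e3, frob, Point.map_some]
      apply FrobCH_some_congr
      · rw [FrobCH_residue_frob A hφ hx hx', FiniteField.coe_frobeniusAlgHom, ZMod.card]
      · rw [FrobCH_residue_frob A hφ hy hy', FiniteField.coe_frobeniusAlgHom, ZMod.card]
  -- Cayley-Hamilton in the residue field
  have hP' : P ∈ Submodule.torsionBy ℤ ((W.map (Int.castRingHom ℚ))⁄Qb).Point (p : ℤ) := by
    rw [Submodule.mem_torsionBy_iff, natCast_zsmul]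
    exact hP
  have h2 : (2 : ZMod ℓ) ≠ 0 := by
    intro h
    have h' : ((2 : ℕ) : ZMod ℓ) = 0 := by exact_mod_cast h
    have := Nat.le_of_dvd (by norm_num) ((ZMod.natCast_eq_zero_iff 2 ℓ).mp h')
    omega
  have h3 : (3 : ZMod ℓ) ≠ 0 := by
    intro h
    have h' : ((3 : ℕ) : ZMod ℓ) = 0 := by exact_mod_cast h
    have := Nat.le_of_dvd (by norm_num) ((ZMod.natCast_eq_zero_iff 3 ℓ).mp h')
    omega
  have hCH := CH h2 h3 (W.reductionMod ℓ) hΔ0 (K := IsLocalRing.ResidueField A) (r ⟨P, hP'⟩)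
  rw [ZMod.card] at hCH
  have ht : W.apOfModel ℓ = (ℓ : ℤ) + 1 - (Nat.card (W.reductionMod ℓ).toAffine.Point : ℤ) := by
    simp [WeierstrassCurve.apOfModel, WeierstrassCurve.traceOfFrobenius, WeierstrassCurve.card]
  rw [← ht, ← heq, ← heq, ← map_zsmul, ← map_zsmul, ← map_sub, ← map_add] at hCH
  have h0 := hr (hCH.trans (_root_.map_zero r).symm)
  exact congrArg Subtype.val h0

end Fermat.Agent.S41.A
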