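import Fermat.Agent.Lib.FrobCH.GenericCH

/-!
# S41, block A, node N2a: `x(n • η)` has degree `n ^ 2` for the generic point `η`
-/

set_option autoImplicit false

open Polynomial WeierstrassCurve WeierstrassCurve.Affine WeierstrassCurve.Affine.Point

namespace Fermat.Agent.S41.A

open Fermat.Agent.Lib.FrobCH

/-- N2a -/
theorem exists_isX_nsmul {k : Type*} [Field k] (A B : k) (hΔ : (shortW A B).Δ ≠ 0)
    {L : Type*} [Field L] [DecidableEq L] [Algebra k L] [Algebra (RatFunc k) L]
    [IsScalarTower k (RatFunc k) L] {y : L} (hy : y ^ 2 = pol L (fpol A B))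
    (h : ((shortW A B)⁄L).Nonsingular (algebraMap (RatFunc k) L RatFunc.X) y) (n : ℕ) :
    ∃ a b : k[X], IsX (n • (Point.some _ _ h : ((shortW A B)⁄L).Point)) a b ∧
      dmax a b = n ^ 2 := by
  set η : ((shortW A B)⁄L).Point := .some _ _ h with hη
  have hηG : InG A B y η := Or.inr ⟨RatFunc.X, 1, by simpa using h, by simp [hη]⟩
  have hh1 : hgt k η = 1 := by rw [hη, hgt_some, hdeg_X]
  let G := oddSubgroup A B hy
  let hh : G → ℤ := fun P => (hgt k P.1 : ℤ)
  have par : ∀ x y : G, hh (x + y) + hh (x - y) = 2 * hh x + 2 * hh y := by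
    intro x y
    have := hgt_parallelogram A B hy hΔ x.2 y.2
    simp only [hh, AddSubgroup.coe_add, AddSubgroup.coe_sub]
    exact_mod_cast this
  have key := Quad.map_zsmul par (n : ℤ) ⟨η, hηG⟩
  have hnG : InG A B y (n • η) := G.nsmul_mem hηG n
  have key' : hgt k (n • η) = n ^ 2 := by
    have e : hh ((n : ℤ) • ⟨η, hηG⟩) = (hgt k (n • η) : ℤ) := by
      simp [hh]
    rw [e] at key
    simp only [hh, hh1] at key
    have : (hgt k (n • η) : ℤ) = ((n ^ 2 : ℕ) : ℤ) := by
      rw [key]; push_cast; ring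
    exact_mod_cast this
  obtain ⟨a, b, hab, hd⟩ := Hgt.exists_isX A B hnG
  exact ⟨a, b, hab, by rw [hd, key']⟩

end Fermat.Agent.S41.A
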