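import Fermat.Agent.Lib.FrobCH.Parallelogram

/-!
# S41, block A, node N2b: specialisation of `x(n η)` at a point, by the `x`-only ladder
(task S41-A-N2b, helper68)
-/

set_option autoImplicit false

open Polynomial WeierstrassCurve WeierstrassCurve.Affine WeierstrassCurve.Affine.Point

namespace Fermat.Agent.S41.A

open Fermat.Agent.Lib.FrobCH

variable {k : Type*} [Field k]

/-- the polynomial identity behind the parallelogram law. -/
theorem Ladder_prop (W : WeierstrassCurve k) {L : Type*} [Field L]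
    [DecidableEq L] [Algebra k L] [Algebra (RatFunc k) L] [IsScalarTower k (RatFunc k) L]
    {P Q : (W⁄L).Point} {a₁ b₁ a₂ b₂ a₃ b₃ a₄ b₄ : k[X]}
    (h₁ : IsX P a₁ b₁) (h₂ : IsX Q a₂ b₂) (h₃ : IsX (P + Q) a₃ b₃) (h₄ : IsX (P - Q) a₄ b₄)
    (i j : Fin 3) :
    asF (W.map C) (sym a₁ b₁ a₂ b₂) i * sym a₃ b₃ a₄ b₄ j =
      asF (W.map C) (sym a₁ b₁ a₂ b₂) j * sym a₃ b₃ a₄ b₄ i := by
  obtain ⟨l₁, -, ha₁, hb₁⟩ := h₁.exists_scalar
  obtain ⟨l₂, -, ha₂, hb₂⟩ := h₂.exists_scalar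
  obtain ⟨l₃, -, ha₃, hb₃⟩ := h₃.exists_scalar
  obtain ⟨l₄, -, ha₄, hb₄⟩ := h₄.exists_scalar
  have hinj := pol_injective (k := k) L
  have hW : (W.map C).map (pol L) = (W⁄L) := by
    rw [WeierstrassCurve.map_map]
    congr 1
    ext c
    simp [pol_C]
  have hv : ∀ j, pol L (sym a₁ b₁ a₂ b₂ j) = (l₁ * l₂) * P.sym2x Q j := by
    intro j
    fin_cases j <;> simp [sym, Point.sym2x, ha₁, hb₁, ha₂, hb₂] <;> ring
  have hv' : ∀ j, pol L (sym a₃ b₃ a₄ b₄ j) = (l₃ * l₄) * (P + Q).sym2x (P - Q) j := by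
    intro j
    fin_cases j <;> simp [sym, Point.sym2x, ha₃, hb₃, ha₄, hb₄] <;> ring
  have hF : ∀ i, pol L (asF (W.map C) (sym a₁ b₁ a₂ b₂) i) =
      (l₁ * l₂) ^ 2 * asF (W⁄L) (P.sym2x Q) i := by
    intro i
    rw [map_asF, hW, ← asF_smul]
    congr 1
    funext j
    exact hv j
  apply hinj
  rw [map_mul, map_mul, hF, hF, hv', hv']
  have := asF_sym2x (W⁄L) P Q i j
  linear_combination (l₁ * l₂) ^ 2 * (l₃ * l₄) * this

theorem Ladder_eval_asF (W : WeierstrassCurve k) (t : k) (v : Fin 3 → k[X]) (i : Fin 3) :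
    (asF (W.map C) v i).eval t = asF W (fun j => (v j).eval t) i := by
  have h := map_asF (evalRingHom t) (W.map C) v i
  have hW : (W.map C).map (evalRingHom t) = W := by
    rw [WeierstrassCurve.map_map]
    have : (evalRingHom t).comp C = RingHom.id k := by
      ext c
      simp
    rw [this, WeierstrassCurve.map_id]
  rw [hW] at h
  exact h

theorem Ladder_eval_sym (t : k) (a₁ b₁ a₂ b₂ : k[X]) (j : Fin 3) :
    (sym a₁ b₁ a₂ b₂ j).eval t =
      sym (a₁.eval t) (b₁.eval t) (a₂.eval t) (b₂.eval t) j := by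
  fin_cases j <;> simp [sym]

theorem Ladder_eval_ne_of_isCoprime {a b : k[X]} (h : IsCoprime a b) (t : k) :
    a.eval t ≠ 0 ∨ b.eval t ≠ 0 := by
  obtain ⟨p, q, hpq⟩ := h
  by_contra hcon
  rw [not_or, not_not, not_not] at hcon
  have := congrArg (Polynomial.eval t) hpq
  simp [hcon.1, hcon.2] at this

theorem Ladder_eval_ne_of_prim {v : Fin 3 → k[X]} (h : Prim v) (t : k) :
    ∃ i, (v i).eval t ≠ 0 := by
  obtain ⟨c, hc⟩ := h
  by_contra hcon
  push Not at hcon
  have := congrArg (Polynomial.eval t) hc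
  simp [hcon] at this

/-- proportional nonzero pairs differ by a nonzero scalar. -/
theorem Ladder_pair_scalar {p : Fin 2 → k} (hp : p ≠ 0) {u₀ u₁ : k} (hu : u₀ ≠ 0 ∨ u₁ ≠ 0)
    (h : p 0 * u₁ = p 1 * u₀) : ∃ μ : k, μ ≠ 0 ∧ u₀ = μ * p 0 ∧ u₁ = μ * p 1 := by
  by_cases h0 : p 0 = 0
  · have h1 : p 1 ≠ 0 := by
      intro h1
      apply hp
      funext i
      fin_cases i
      · exact h0
      · exact h1
    have hu0 : u₀ = 0 := by
      rw [h0, zero_mul] at h
      exact (mul_eq_zero.1 h.symm).resolve_left h1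
    have hu1 : u₁ ≠ 0 := hu.resolve_left (not_not.2 hu0)
    refine ⟨u₁ / p 1, div_ne_zero hu1 h1, ?_, ?_⟩
    · rw [hu0, h0, mul_zero]
    · field_simp
  · have hu0 : u₀ ≠ 0 := by
      intro hu0
      rw [hu0, mul_zero] at h
      exact (hu.resolve_left (not_not.2 hu0)) ((mul_eq_zero.1 h).resolve_left h0)
    refine ⟨u₀ / p 0, div_ne_zero hu0 h0, ?_, ?_⟩
    · field_simp
    · field_simp
      linear_combination h

/-- one step of the ladder over the field of constants. -/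
theorem Ladder_step [DecidableEq k] (W : Affine k) (Q P : W.Point)
    {a₁ b₁ a₂ b₂ a₃ b₃ a₄ b₄ : k}
    (h₁ : ∃ μ : k, μ ≠ 0 ∧ a₁ = μ * Q.xRep 0 ∧ b₁ = μ * Q.xRep 1)
    (h₂ : ∃ μ : k, μ ≠ 0 ∧ a₂ = μ * P.xRep 0 ∧ b₂ = μ * P.xRep 1)
    (h₄ : ∃ μ : k, μ ≠ 0 ∧ a₄ = μ * (Q - P).xRep 0 ∧ b₄ = μ * (Q - P).xRep 1)
    (hF : ∃ i, asF W (sym a₁ b₁ a₂ b₂) i ≠ 0)
    (hprop : ∀ i j, asF W (sym a₁ b₁ a₂ b₂) i * sym a₃ b₃ a₄ b₄ j =
      asF W (sym a₁ b₁ a₂ b₂) j * sym a₃ b₃ a₄ b₄ i) :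
    (Q + P).xRep 0 * b₃ = (Q + P).xRep 1 * a₃ := by
  obtain ⟨μ₁, hμ₁, ha₁, hb₁⟩ := h₁
  obtain ⟨μ₂, hμ₂, ha₂, hb₂⟩ := h₂
  obtain ⟨μ₄, hμ₄, ha₄, hb₄⟩ := h₄
  obtain ⟨i0, hi0⟩ := hF
  have hs : sym a₁ b₁ a₂ b₂ = fun j => (μ₁ * μ₂) * Q.sym2x P j := by
    funext j
    fin_cases j <;> simp [sym, Point.sym2x, ha₁, hb₁, ha₂, hb₂] <;> ring
  have hFG : ∀ i, asF W (sym a₁ b₁ a₂ b₂) i = (μ₁ * μ₂) ^ 2 * asF W (Q.sym2x P) i := by
    intro i
    rw [hs]
    exact asF_smul W _ _ i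
  have hc : (μ₁ * μ₂) ^ 2 ≠ 0 := pow_ne_zero 2 (mul_ne_zero hμ₁ hμ₂)
  have hG0 : asF W (Q.sym2x P) i0 ≠ 0 := by
    intro h
    apply hi0
    rw [hFG, h, mul_zero]
  have hw : ∀ i j, asF W (Q.sym2x P) i * sym a₃ b₃ a₄ b₄ j =
      asF W (Q.sym2x P) j * sym a₃ b₃ a₄ b₄ i := by
    intro i j
    apply mul_left_cancel₀ hc
    have := hprop i j
    rw [hFG, hFG] at this
    linear_combination this
  have hz := asF_sym2x W Q P
  have hwz : ∀ i j, sym a₃ b₃ a₄ b₄ i * (Q + P).sym2x (Q - P) j =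
      sym a₃ b₃ a₄ b₄ j * (Q + P).sym2x (Q - P) i := by
    intro i j
    apply mul_left_cancel₀ hG0
    linear_combination (Q + P).sym2x (Q - P) j * hw i0 i - (Q + P).sym2x (Q - P) i * hw i0 j +
      sym a₃ b₃ a₄ b₄ i0 * hz i j
  have e01 := hwz 0 1
  have e12 := hwz 1 2
  simp only [sym, Point.sym2x, Matrix.cons_val_zero, Matrix.cons_val_one, Matrix.cons_val] at e01 e12
  have hg : (Q - P).xRep 0 ≠ 0 ∨ (Q - P).xRep 1 ≠ 0 := by
    by_contra hcon
    rw [not_or, not_not, not_not] at hcon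
    apply Point.xRep_ne_zero (Q - P)
    funext i
    fin_cases i
    · exact hcon.1
    · exact hcon.2
  rcases hg with hg | hg
  · have hne : μ₄ * (Q - P).xRep 0 ^ 2 ≠ 0 := mul_ne_zero hμ₄ (pow_ne_zero 2 hg)
    apply mul_left_cancel₀ hne
    rw [ha₄, hb₄] at e01
    linear_combination -e01
  · have hne : μ₄ * (Q - P).xRep 1 ^ 2 ≠ 0 := mul_ne_zero hμ₄ (pow_ne_zero 2 hg)
    apply mul_left_cancel₀ hne
    rw [ha₄, hb₄] at e12
    linear_combination -e12

/-- N2b -/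
theorem eval_isX {k : Type*} [Field k] [DecidableEq k] (W : WeierstrassCurve k) (hΔ : W.Δ ≠ 0)
    {L : Type*} [Field L] [DecidableEq L] [Algebra k L] [Algebra (RatFunc k) L]
    [IsScalarTower k (RatFunc k) L] {y : L}
    (h : (W⁄L).Nonsingular (algebraMap (RatFunc k) L RatFunc.X) y)
    (a b : ℕ → k[X]) (hab : ∀ n, IsX (n • (Point.some _ _ h : (W⁄L).Point)) (a n) (b n))
    {t s : k} (hP : W.toAffine.Nonsingular t s) (n : ℕ) :
    (n • (Point.some t s hP : W.toAffine.Point)).xRep 0 * (b n).eval t =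
      (n • (Point.some t s hP : W.toAffine.Point)).xRep 1 * (a n).eval t := by
  have hinj := pol_injective (k := k) L
  generalize hη : (Point.some _ _ h : (W⁄L).Point) = η at hab
  generalize hPP : (Point.some t s hP : W.toAffine.Point) = P
  have hX1 : IsX η (a 1) (b 1) := by
    have := hab 1
    rwa [one_nsmul] at this
  -- the case `n = 0`
  have hC0 : (0 • P).xRep 0 * (b 0).eval t = (0 • P).xRep 1 * (a 0).eval t := by
    have h0 := (hab 0).2
    rw [zero_nsmul] at h0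
    have h0' : pol L (b 0) = 0 := by simpa using h0
    have hb0 : b 0 = 0 := by
      apply hinj
      rw [h0', _root_.map_zero]
    rw [zero_nsmul, hb0]
    simp
  -- the case `n = 1`
  have hC1 : P.xRep 0 * (b 1).eval t = P.xRep 1 * (a 1).eval t := by
    have h1 := hX1.2
    rw [← hη] at h1
    have h1' : algebraMap (RatFunc k) L RatFunc.X * pol L (b 1) = pol L (a 1) := by
      simpa using h1
    have hpX : pol L (X : k[X]) = algebraMap (RatFunc k) L RatFunc.X := by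
      simp [pol]
    have ha1 : a 1 = X * b 1 := by
      apply hinj
      rw [map_mul, hpX, h1']
    rw [← hPP, ha1]
    simp
  have hs1 := Ladder_pair_scalar (Point.xRep_ne_zero P)
    (Ladder_eval_ne_of_isCoprime hX1.1 t) hC1
  have key : ∀ n : ℕ, ((n • P).xRep 0 * (b n).eval t = (n • P).xRep 1 * (a n).eval t) ∧
      (((n + 1) • P).xRep 0 * (b (n + 1)).eval t = ((n + 1) • P).xRep 1 * (a (n + 1)).eval t) := by
    intro n
    induction n with
    | zero =>
      refine ⟨hC0, ?_⟩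
      rw [zero_add, one_nsmul]
      exact hC1
    | succ m ih =>
      refine ⟨ih.2, ?_⟩
      have h3 : IsX ((m + 1) • η + η) (a (m + 1 + 1)) (b (m + 1 + 1)) := by
        have := hab (m + 1 + 1)
        rwa [succ_nsmul] at this
      have h4 : IsX ((m + 1) • η - η) (a m) (b m) := by
        have := hab m
        rwa [succ_nsmul, add_sub_cancel_right]
      have hp := Ladder_prop W (hab (m + 1)) hX1 h3 h4
      have hprim := prim_asF W hΔ (prim_sym (hab (m + 1)).1 hX1.1)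
      have hsym : (fun j => (sym (a (m + 1)) (b (m + 1)) (a 1) (b 1) j).eval t) =
          sym ((a (m + 1)).eval t) ((b (m + 1)).eval t) ((a 1).eval t) ((b 1).eval t) :=
        funext fun j => Ladder_eval_sym t _ _ _ _ j
      have hstep := Ladder_step W.toAffine ((m + 1) • P) P
        (a₃ := (a (m + 1 + 1)).eval t) (b₃ := (b (m + 1 + 1)).eval t)
        (a₄ := (a m).eval t) (b₄ := (b m).eval t)
        (Ladder_pair_scalar (Point.xRep_ne_zero _)
          (Ladder_eval_ne_of_isCoprime (hab (m + 1)).1 t) ih.2)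
        hs1
        (by
          rw [succ_nsmul, add_sub_cancel_right]
          exact Ladder_pair_scalar (Point.xRep_ne_zero _)
            (Ladder_eval_ne_of_isCoprime (hab m).1 t) ih.1)
        (by
          obtain ⟨i, hi⟩ := Ladder_eval_ne_of_prim hprim t
          rw [Ladder_eval_asF, hsym] at hi
          exact ⟨i, hi⟩)
        (by
          intro i j
          have := congrArg (Polynomial.eval t) (hp i j)
          rw [eval_mul, eval_mul, Ladder_eval_asF, Ladder_eval_asF, hsym, Ladder_eval_sym,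
            Ladder_eval_sym] at this
          exact this)
      rw [← succ_nsmul] at hstep
      exact hstep
  exact (key n).1

end Fermat.Agent.S41.A
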