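import Fermat.Agent.Lib.FrobCH.Defs
import Fermat.Agent.S51.Card

/-!
# S41, block A, node N2d (core): counting the `n`-torsion of a short Weierstrass curve from a
coprime polynomial representative `(a : b)` of the `x`-coordinate of multiplication by `n`.
-/

set_option autoImplicit false

open Polynomial WeierstrassCurve WeierstrassCurve.Affine WeierstrassCurve.Affine.Point

namespace Fermat.Agent.S41.A

open Fermat.Agent.Lib.FrobCH

theorem ShortTorsionCore.nonsingular {k : Type*} [Field k] (A B : k)
    (hΔ : (shortW A B).Δ ≠ 0) {t s : k} (h : s ^ 2 = t ^ 3 + A * t + B) :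
    (shortW A B).toAffine.Nonsingular t s := by
  refine (Affine.equation_iff_nonsingular_of_Δ_ne_zero hΔ).mp ?_
  rw [Affine.equation_iff]
  simp [shortW, h]

theorem ShortTorsionCore.ne_zero {k : Type*} [Field k] {a b : k[X]} (hcop : IsCoprime a b)
    {n : ℕ} (hn : 0 < n) (hd : dmax a b = n ^ 2) : b ≠ 0 := by
  rintro rfl
  have ha : IsUnit a := isCoprime_zero_right.mp hcop
  have h0 : a.natDegree = 0 := natDegree_eq_zero_of_isUnit ha
  have : dmax a 0 = 0 := by simp [dmax, h0]
  rw [this] at hd
  have : 0 < n ^ 2 := by positivity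
  omega

/-- The core of `short_torsion`, with the three inputs (generic multiplication, specialisation,
generic fibre) as explicit hypotheses. -/
theorem ShortTorsionCore.main {k : Type*} [Field k] [DecidableEq k] [IsAlgClosed k]
    (A B : k) (hΔ : (shortW A B).Δ ≠ 0) {n : ℕ} (hn : 0 < n) (a b : k[X])
    (hb : b ≠ 0)
    (hev : ∀ (t s : k) (hP : (shortW A B).toAffine.Nonsingular t s),
      (n • (Point.some t s hP : (shortW A B).toAffine.Point)).xRep 0 * b.eval t =
        (n • (Point.some t s hP : (shortW A B).toAffine.Point)).xRep 1 * a.eval t)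
    (c : k) (S : Finset k) (hS : S.card = n ^ 2)
    (hSt : ∀ t ∈ S, b.eval t ≠ 0 ∧ a.eval t = c * b.eval t) :
    {P : (shortW A B).toAffine.Point | n • P = 0}.Finite ∧
      n ^ 2 ≤ {P : (shortW A B).toAffine.Point | n • P = 0}.ncard := by
  classical
  have hfin : {P : (shortW A B).toAffine.Point | n • P = 0}.Finite := by
    refine (Fermat.Agent.S51.finite_of_roots (shortW A B).toAffine
      {P : (shortW A B).toAffine.Point | n • P = 0} b hb ?_).1
    intro x y h hP
    have h1 := hev x y h
    rw [Set.mem_ofPred_eq] at hP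
    rw [hP] at h1
    simpa using h1
  refine ⟨hfin, ?_⟩
  -- a point above every `t`
  have hex : ∀ t : k, ∃ s : k, s ^ 2 = t ^ 3 + A * t + B := fun t =>
    IsAlgClosed.exists_pow_nat_eq _ (by norm_num)
  choose s hs using hex
  let P : k → (shortW A B).toAffine.Point := fun t =>
    Point.some t (s t) (ShortTorsionCore.nonsingular A B hΔ (hs t))
  have hPx : ∀ t, (P t).xRep = ![t, 1] := fun t => rfl
  have hnP : ∀ t ∈ S, (n • P t).xRep = ![c, 1] := by
    intro t ht
    obtain ⟨hbt, hat⟩ := hSt t ht
    have h1 := hev t (s t) (ShortTorsionCore.nonsingular A B hΔ (hs t))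
    change (n • P t).xRep 0 * _ = (n • P t).xRep 1 * _ at h1
    rw [hat] at h1
    have h2 : (n • P t).xRep 0 = (n • P t).xRep 1 * c := by
      apply mul_right_cancel₀ hbt
      rw [h1]; ring
    rcases hQ : n • P t with _ | ⟨x, y, h⟩
    · rw [hQ] at h2
      simp [xRep] at h2
    · rw [hQ] at h2
      simp only [xRep_some, Matrix.cons_val_zero, Matrix.cons_val_one, one_mul] at h2
      rw [xRep_some, h2]
  -- the base point
  have hne : S.Nonempty := by
    rw [← Finset.card_pos, hS]; positivity
  obtain ⟨t₀, ht₀⟩ := hne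
  let P' : k → (shortW A B).toAffine.Point := fun t =>
    if n • P t = n • P t₀ then P t else - P t
  have hP'x : ∀ t, (P' t).xRep = ![t, 1] := by
    intro t
    simp only [P']
    split_ifs
    · exact hPx t
    · rw [xRep_neg]; exact hPx t
  have hnP' : ∀ t ∈ S, n • P' t = n • P t₀ := by
    intro t ht
    simp only [P']
    split_ifs with h
    · exact h
    · rcases eq_or_eq_neg_of_xRep_eq_xRep ((hnP t ht).trans (hnP t₀ ht₀).symm) with h' | h'
      · exact absurd h' h
      · rw [smul_neg, h', neg_neg]
  have hinj : Set.InjOn (fun t => P' t - P' t₀) (S : Set k) := by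
    intro t _ t' _ h
    have h1 : P' t = P' t' := sub_left_injective h
    have h2 := congrArg (fun Q : (shortW A B).toAffine.Point => Q.xRep 0) h1
    simpa [hP'x] using h2
  have hsub : (fun t => P' t - P' t₀) '' (S : Set k) ⊆
      {P : (shortW A B).toAffine.Point | n • P = 0} := by
    rintro _ ⟨t, ht, rfl⟩
    rw [Set.mem_ofPred_eq]
    change n • (P' t - P' t₀) = 0
    rw [smul_sub, hnP' t ht, hnP' t₀ ht₀, sub_self]
  calc n ^ 2 = (S : Set k).ncard := by rw [Set.ncard_coe_finset, hS]
    _ = ((fun t => P' t - P' t₀) '' (S : Set k)).ncard := hinj.ncard_image.symm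
    _ ≤ _ := Set.ncard_le_ncard hsub hfin

end Fermat.Agent.S41.A
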