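import Fermat.Agent.Lib.FrobCH.Short
import Fermat.Agent.S41.A.GenericMul
import Fermat.Agent.S41.A.Ladder
import Fermat.Agent.S41.A.Fibre
import Fermat.Agent.S41.A.ShortTorsionCore

/-!
# S41, block A, node N2d: the `n`-torsion of a short Weierstrass curve over an algebraically
closed field of characteristic zero is finite with at least `n ^ 2` elements.
-/

set_option autoImplicit false

open Polynomial WeierstrassCurve WeierstrassCurve.Affine WeierstrassCurve.Affine.Point

namespace Fermat.Agent.S41.A

open Fermat.Agent.Lib.FrobCH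

/-- N2d -/
theorem short_torsion {k : Type*} [Field k] [DecidableEq k] [IsAlgClosed k] [CharZero k]
    (A B : k) (hΔ : (shortW A B).Δ ≠ 0) {n : ℕ} (hn : 0 < n) :
    {P : (shortW A B).toAffine.Point | n • P = 0}.Finite ∧
      n ^ 2 ≤ {P : (shortW A B).toAffine.Point | n • P = 0}.ncard := by
  classical
  -- the generic point
  let L := AdjoinRoot (Lpoly A B)
  have hη : ((shortW A B)⁄L).Nonsingular (algebraMap (RatFunc k) L RatFunc.X)
      (AdjoinRoot.root (Lpoly A B)) := by
    apply nonsingular_of_eq A B hΔ
    rw [root_sq]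
    simp only [pol, fpol, RingHom.comp_apply, map_add, map_mul, map_pow, RatFunc.algebraMap_X,
      RatFunc.algebraMap_C]
    rw [IsScalarTower.algebraMap_apply k (RatFunc k) L A,
      IsScalarTower.algebraMap_apply k (RatFunc k) L B, RatFunc.algebraMap_eq_C]
  have hex := fun m : ℕ => exists_isX_nsmul A B hΔ (L := L) (root_sq A B) hη m
  choose a b hab using hex
  have hcop : IsCoprime (a n) (b n) := (hab n).1.1
  have hd : dmax (a n) (b n) = n ^ 2 := (hab n).2
  have hpos : 0 < max (a n).natDegree (b n).natDegree := by
    have : 0 < n ^ 2 := by positivity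
    rw [← hd] at this
    exact this
  obtain ⟨c, S, hS, hSt⟩ := exists_fibre (a n) (b n) hcop hpos
  refine ShortTorsionCore.main A B hΔ hn (a n) (b n) (ShortTorsionCore.ne_zero hcop hn hd)
    (fun t s hP => eval_isX (shortW A B) hΔ (L := L) hη a b (fun m => (hab m).1) hP n)
    c S (hS.trans hd) hSt

end Fermat.Agent.S41.A
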