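import Fermat.Agent.Lib.VarChange
import Fermat.Agent.S41.A.ShortTorsion

/-!
# S41, block A, node N2: the `n`-torsion of an elliptic curve over an algebraically closed field
of characteristic zero is finite with at least `n ^ 2` elements.
-/

set_option autoImplicit false

open Polynomial WeierstrassCurve WeierstrassCurve.Affine WeierstrassCurve.Affine.Point

namespace Fermat.Agent.S41.A

open Fermat.Agent.Lib.FrobCH Fermat.Agent.Lib.VarChange

/-- N2 -/
theorem torsion_card {k : Type*} [Field k] [DecidableEq k] [IsAlgClosed k] [CharZero k]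
    (W : WeierstrassCurve k) (hΔ : W.Δ ≠ 0) {n : ℕ} (hn : 0 < n) :
    {P : W.toAffine.Point | n • P = 0}.Finite ∧
      n ^ 2 ≤ {P : W.toAffine.Point | n • P = 0}.ncard := by
  have : Invertible (2 : k) := invertibleOfNonzero two_ne_zero
  have : Invertible (3 : k) := invertibleOfNonzero three_ne_zero
  obtain ⟨C, hC⟩ := W.exists_variableChange_isShortNF
  obtain ⟨A, B, hAB⟩ : ∃ A B : k, C • W = shortW A B := by
    refine ⟨(C • W).a₄, (C • W).a₆, ?_⟩
    ext <;> simp [shortW, hC.a₁, hC.a₂, hC.a₃]
  have hΔ' : (shortW A B).Δ ≠ 0 := by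
    rw [← hAB, variableChange_Δ]
    exact mul_ne_zero (pow_ne_zero _ (Units.ne_zero _)) hΔ
  let e := pointEquiv C W (shortW A B) hAB
  obtain ⟨hfin, hcard⟩ := short_torsion A B hΔ' hn
  have himg : e '' {P : W.toAffine.Point | n • P = 0} =
      {P : (shortW A B).toAffine.Point | n • P = 0} := by
    ext Q
    constructor
    · rintro ⟨P, hP, rfl⟩
      change n • e P = 0
      rw [← map_nsmul, show n • P = 0 from hP, _root_.map_zero]
    · intro hQ
      refine ⟨e.symm Q, ?_, e.apply_symm_apply Q⟩
      change n • e.symm Q = 0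
      rw [← map_nsmul, show n • Q = 0 from hQ, _root_.map_zero]
  rw [← himg] at hfin hcard
  refine ⟨hfin.of_finite_image e.injective.injOn, ?_⟩
  rwa [Set.ncard_image_of_injective _ e.injective] at hcard

end Fermat.Agent.S41.A
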