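import Mathlib
import Fermat.Prelude.Def_FLTPrelim_ModularRep
import Fermat.Prelude.Def_EllipticCurve_FrobeniusTrace
import Fermat.Agent.Lib.VarChange

/-!
# S41, block A, node N5 (first half): transfer of irreducibility along a change of variables

Owner: helper211 (task 1788).
-/

set_option autoImplicit false

open Polynomial WeierstrassCurve WeierstrassCurve.Affine WeierstrassCurve.Affine.Point

namespace Fermat.Agent.S41.A

open Fermat.Agent.Lib.VarChange

/-- an additive equivalence restricts to the torsion subgroups. -/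
noncomputable def transferTors {M M' : Type*} [AddCommGroup M] [AddCommGroup M'] (e : M ≃+ M')
    (n : ℤ) : Submodule.torsionBy ℤ M n ≃+ Submodule.torsionBy ℤ M' n where
  toFun x := ⟨e x, by
    rw [Submodule.mem_torsionBy_iff, ← map_zsmul, (Submodule.mem_torsionBy_iff _ _).mp x.2,
      _root_.map_zero]⟩
  invFun y := ⟨e.symm y, by
    rw [Submodule.mem_torsionBy_iff, ← map_zsmul, (Submodule.mem_torsionBy_iff _ _).mp y.2,
      _root_.map_zero]⟩
  left_inv x := Subtype.ext (e.symm_apply_apply _)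
  right_inv y := Subtype.ext (e.apply_symm_apply _)
  map_add' x y := Subtype.ext (map_add e _ _)

theorem transferTors_coe {M M' : Type*} [AddCommGroup M] [AddCommGroup M'] (e : M ≃+ M')
    (n : ℤ) (x : Submodule.torsionBy ℤ M n) : (transferTors e n x : M') = e x := rfl

/-- irreducibility is transported by an equivariant additive equivalence. -/
theorem transfer_irreducible {p : ℕ} {G T T' : Type*} [AddCommGroup T] [AddCommGroup T']
    [Module (ZMod p) T] [Module (ZMod p) T'] [SMul G T] [SMul G T'] (e : T ≃+ T')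
    (he : ∀ (σ : G) (x : T), e (σ • x) = σ • e x)
    (h : ∀ N : Submodule (ZMod p) T, (∀ σ : G, ∀ x ∈ N, σ • x ∈ N) → N = ⊥ ∨ N = ⊤)
    (N' : Submodule (ZMod p) T') (hN' : ∀ σ : G, ∀ x ∈ N', σ • x ∈ N') : N' = ⊥ ∨ N' = ⊤ := by
  have hmem : ∀ x : T, x ∈ N'.comap (e.toAddMonoidHom.toZModLinearMap p) ↔ e x ∈ N' :=
    fun x => Iff.rfl
  rcases h (N'.comap (e.toAddMonoidHom.toZModLinearMap p)) (fun σ x hx => by
    rw [hmem] at hx ⊢
    rw [he]
    exact hN' σ _ hx) with h0 | h0
  · left
    rw [eq_bot_iff]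
    intro y hy
    have h1 : e.symm y ∈ N'.comap (e.toAddMonoidHom.toZModLinearMap p) := by
      rw [hmem, e.apply_symm_apply]
      exact hy
    rw [h0, Submodule.mem_bot] at h1
    rw [Submodule.mem_bot, ← e.apply_symm_apply y, h1, _root_.map_zero]
  · right
    rw [eq_top_iff]
    intro y _
    have h1 : e.symm y ∈ N'.comap (e.toAddMonoidHom.toZModLinearMap p) := by
      rw [h0]; trivial
    rw [hmem, e.apply_symm_apply] at h1
    exact h1

theorem galoisRepIsIrreducible_of_variableChange (E E' : WeierstrassCurve ℚ)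
    (C : VariableChange ℚ) (hC : C • E = E') {p : ℕ}
    (hirr : GaloisRepIsIrreducible (K := AlgebraicClosure ℚ) ℚ E p) :
    GaloisRepIsIrreducible (K := AlgebraicClosure ℚ) ℚ E' p := by
  have hK : C.baseChange (AlgebraicClosure ℚ) • (E⁄(AlgebraicClosure ℚ)) =
      (E'⁄(AlgebraicClosure ℚ)) := by
    rw [← hC]
    exact map_variableChange (W := E) C (algebraMap ℚ (AlgebraicClosure ℚ))
  let e := pointEquiv (C.baseChange (AlgebraicClosure ℚ)) (E⁄(AlgebraicClosure ℚ))
    (E'⁄(AlgebraicClosure ℚ)) hK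
  have he : ∀ (σ : AlgebraicClosure ℚ ≃ₐ[ℚ] AlgebraicClosure ℚ)
      (P : (E⁄(AlgebraicClosure ℚ)).Point), e (σ • P) = σ • e P := by
    intro σ P
    exact (map_pointEquiv C E E' hC σ.toAlgHom hK hK P).symm
  let eT := transferTors e (p : ℤ)
  have heT : ∀ (σ : AlgebraicClosure ℚ ≃ₐ[ℚ] AlgebraicClosure ℚ)
      (x : Submodule.torsionBy ℤ (E⁄(AlgebraicClosure ℚ)).Point (p : ℤ)),
      eT (σ • x) = σ • eT x := by
    intro σ x
    exact Subtype.ext (he σ x)
  obtain ⟨hnt, hN⟩ := hirr
  refine ⟨?_, fun N' hN' => ?_⟩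
  · exact eT.symm.toEquiv.nontrivial
  · exact transfer_irreducible eT heT hN N' hN'

theorem modRepIsIrreducible_of_isIntegralModelOf (E : WeierstrassCurve ℚ)
    {W : WeierstrassCurve ℤ} (hW : W.IsIntegralModelOf E) {p : ℕ}
    (hirr : GaloisRepIsIrreducible (K := AlgebraicClosure ℚ) ℚ E p) :
    W.ModRepIsIrreducible p := by
  obtain ⟨C, hC⟩ := hW
  exact galoisRepIsIrreducible_of_variableChange E _ C hC hirr

end Fermat.Agent.S41.A
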