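import Mathlib
import Fermat.Prelude.Def_FLTPrelim_ModularRep
import Fermat.Prelude.Def_EllipticCurve_FrobeniusTrace
import Fermat.Agent.S29.Cyclo
import Fermat.Agent.S41.A.Abstract
import Fermat.Agent.S41.A.Torsion
import Fermat.Agent.S41.A.Transfer

/-!
# S41, block A, node N5/N6 (second half): conclusion, modulo the quadratic relation N4

`QuadRelation W p S` is the statement of `quad_relation` (node N4) for `W`, `p`, `S`.

Owner: helper211 (task 1788).
-/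

set_option autoImplicit false

open Polynomial WeierstrassCurve WeierstrassCurve.Affine WeierstrassCurve.Affine.Point

namespace Fermat.Agent.S41.A

/-- the conclusion of node N4 (`quad_relation`). -/
def QuadRelation (W : WeierstrassCurve ℤ) (p : ℕ) [Fact p.Prime] : Prop :=
  ∀ (σ : AlgebraicClosure ℚ ≃ₐ[ℚ] AlgebraicClosure ℚ)
    (v : Submodule.torsionBy ℤ ((W.map (Int.castRingHom ℚ))⁄(AlgebraicClosure ℚ)).Point p),
    σ • σ • v - ((1 : ZMod p) + (Fermat.Agent.S29.Cyclo.cyc p σ : ZMod p)) • σ • v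
      + (Fermat.Agent.S29.Cyclo.cyc p σ : ZMod p) • v = 0

theorem mainCore_Δ_ne_zero (W : WeierstrassCurve ℤ) (hWΔ : W.Δ ≠ 0) :
    ((W.map (Int.castRingHom ℚ)).baseChange (AlgebraicClosure ℚ)).Δ ≠ 0 := by
  rw [WeierstrassCurve.baseChange, map_Δ, map_Δ]
  simpa using hWΔ

/-- the `p`-torsion is finite with at least `p ^ 2` elements. -/
theorem mainCore_card (W : WeierstrassCurve ℤ) (hWΔ : W.Δ ≠ 0) {p : ℕ} (hp : 0 < p) :
    Finite (Submodule.torsionBy ℤ ((W.map (Int.castRingHom ℚ))⁄(AlgebraicClosure ℚ)).Point p) ∧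
      p ^ 2 ≤ Nat.card
        (Submodule.torsionBy ℤ ((W.map (Int.castRingHom ℚ))⁄(AlgebraicClosure ℚ)).Point p) := by
  obtain ⟨h1, h2⟩ := torsion_card ((W.map (Int.castRingHom ℚ)).baseChange (AlgebraicClosure ℚ))
    (mainCore_Δ_ne_zero W hWΔ) hp
  have hset : ((Submodule.torsionBy ℤ
      ((W.map (Int.castRingHom ℚ))⁄(AlgebraicClosure ℚ)).Point p : Submodule ℤ _) : Set _) =
      {P : ((W.map (Int.castRingHom ℚ))⁄(AlgebraicClosure ℚ)).Point | p • P = 0} := by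
    ext P
    rw [SetLike.mem_coe, Submodule.mem_torsionBy_iff, Set.mem_ofPred_eq, natCast_zsmul]
  constructor
  · have : Finite ↥{P : ((W.map (Int.castRingHom ℚ))⁄(AlgebraicClosure ℚ)).Point | p • P = 0} :=
      h1.to_subtype
    rw [← hset] at this
    exact this
  · rw [← hset] at h2
    rw [← Nat.card_coe_set_eq] at h2
    exact h2

theorem exists_nonEisenstein_prime'_of_quad (W : WeierstrassCurve ℤ) (hWΔ : W.Δ ≠ 0) {p : ℕ}
    (hp : p.Prime) (hirr : W.ModRepIsIrreducible p) (S : Finset ℕ)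
    (hQ : ∀ [Fact p.Prime], (∀ ℓ : ℕ, ℓ.Prime → ℓ ∉ S → W.IsGoodPrimeFor ℓ →
      (p : ℤ) ∣ ((ℓ : ℤ) + 1 - W.apOfModel ℓ)) → QuadRelation W p) :
    ∃ ℓ : ℕ, ℓ.Prime ∧ ℓ ∉ S ∧ W.IsGoodPrimeFor ℓ ∧
      ¬ (p : ℤ) ∣ ((ℓ : ℤ) + 1 - W.apOfModel ℓ) := by
  by_contra hcon
  push Not at hcon
  have : Fact p.Prime := ⟨hp⟩
  obtain ⟨hfin, hcard⟩ := mainCore_card W hWΔ hp.pos
  have hle := card_le_of_quadratic (p := p) (Fermat.Agent.S29.Cyclo.cyc p) (hQ hcon) hirr.2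
  have h1 : p < p ^ 2 := by
    have := hp.two_le
    nlinarith
  omega

theorem Δ_ne_zero_of_isIntegralModelOf (E : WeierstrassCurve ℚ) [E.IsElliptic]
    {W : WeierstrassCurve ℤ} (hW : W.IsIntegralModelOf E) : W.Δ ≠ 0 := by
  obtain ⟨C, hC⟩ := hW
  intro h0
  have h1 : (C • E).Δ = 0 := by
    rw [hC, map_Δ, h0, _root_.map_zero]
  rw [variableChange_Δ] at h1
  rcases mul_eq_zero.mp h1 with h2 | h2
  · exact (pow_ne_zero _ (Units.ne_zero _)) h2
  · exact E.isUnit_Δ.ne_zero h2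

end Fermat.Agent.S41.A
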