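import Mathlib

/-!
# S41, block A, node N4a: `(F - 1) (F - d) = 0` implies `(F ^ b - 1) (F ^ b - d ^ b) = 0`
(owner: helper244)
-/

set_option autoImplicit false

namespace Fermat.Agent.S41.A

/-- N4a (Mathlib only) -/
theorem pow_quadratic {R M : Type*} [CommRing R] [AddCommGroup M] [Module R M]
    (F : Module.End R M) (d : R) (h : (F - 1) * (F - algebraMap R _ d) = 0) (b : ℕ) :
    (F ^ b - 1) * (F ^ b - algebraMap R _ (d ^ b)) = 0 := by
  have h1 : F ^ b - 1 = (∑ i ∈ Finset.range b, F ^ i * 1 ^ (b - 1 - i)) * (F - 1) := by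
    rw [(Commute.one_right F).geom_sum₂_mul, one_pow]
  have hc : Commute F (algebraMap R (Module.End R M) d) := (Algebra.commutes d F).symm
  have h2 : F ^ b - algebraMap R (Module.End R M) (d ^ b) = (F - algebraMap R (Module.End R M) d) *
      ∑ i ∈ Finset.range b, F ^ i * algebraMap R (Module.End R M) d ^ (b - 1 - i) := by
    rw [hc.mul_geom_sum₂, map_pow]
  rw [h1, h2, mul_assoc, ← mul_assoc (F - 1), h, zero_mul, mul_zero]

end Fermat.Agent.S41.A
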