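import Mathlib
import Fermat.Prelude.Def_FLTPrelim_ModularRep
import Fermat.Prelude.Def_EllipticCurve_FrobeniusTrace
import Fermat.Agent.Lib.FrobDensity
import Fermat.Agent.S29.Cyclo
import Fermat.Agent.S05.XOnly
import Fermat.Agent.S41.A.PowQuad

/-!
# S41, block A, node N4: the quadratic relation for all Galois elements, with the two inputs
(finiteness of the `p`-torsion, Cayley-Hamilton for Frobenius elements) as hypotheses
(owner: helper244)
-/

set_option autoImplicit false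

open WeierstrassCurve WeierstrassCurve.Affine WeierstrassCurve.Affine.Point

namespace Fermat.Agent.S41.A

local notation "Qbar" => AlgebraicClosure ℚ
local notation "GQ" => (AlgebraicClosure ℚ ≃ₐ[ℚ] AlgebraicClosure ℚ)

theorem quadAux_expand {R M : Type*} [CommRing R] [AddCommGroup M] [Module R M]
    (F : Module.End R M) (d : R) (v : M) :
    ((F - 1) * (F - algebraMap R _ d)) v = F (F v) - ((1 : R) + d) • F v + d • v := by
  simp only [Module.End.mul_apply, LinearMap.sub_apply, Module.End.one_apply,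
    Module.algebraMap_end_apply, map_sub, map_smul, add_smul, one_smul, smul_sub]
  abel

/-- the relation for a Frobenius element, on the `ZMod p`-module of `p`-torsion points -/
theorem quadAux_frob (W : WeierstrassCurve ℤ) {p : ℕ} [Fact p.Prime] {ℓ : ℕ} (φ : GQ)
    (hdvd : (p : ℤ) ∣ ((ℓ : ℤ) + 1 - W.apOfModel ℓ))
    (hCH : ∀ P : ((W.map (Int.castRingHom ℚ))⁄Qbar).Point, p • P = 0 →
      φ • φ • P - W.apOfModel ℓ • φ • P + (ℓ : ℤ) • P = 0)
    (v : Submodule.torsionBy ℤ ((W.map (Int.castRingHom ℚ))⁄Qbar).Point p) :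
    φ • φ • v - ((1 : ZMod p) + (ℓ : ZMod p)) • φ • v + (ℓ : ZMod p) • v = 0 := by
  have h1 : (1 : ZMod p) + (ℓ : ZMod p) = ((W.apOfModel ℓ : ℤ) : ZMod p) := by
    have h2 : (((ℓ : ℤ) + 1 : ℤ) : ZMod p) = ((W.apOfModel ℓ : ℤ) : ZMod p) := by
      rw [ZMod.intCast_eq_intCast_iff_dvd_sub]
      have h3 : W.apOfModel ℓ - ((ℓ : ℤ) + 1) = -((ℓ : ℤ) + 1 - W.apOfModel ℓ) := by ring
      rw [h3]
      exact (dvd_neg).mpr hdvd
    rw [← h2]
    push_cast
    ring
  have h4 : (ℓ : ZMod p) = (((ℓ : ℤ) : ℤ) : ZMod p) := by push_cast; rfl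
  rw [h1, h4, Int.cast_smul_eq_zsmul, Int.cast_smul_eq_zsmul]
  have hv : p • (v : ((W.map (Int.castRingHom ℚ))⁄Qbar).Point) = 0 := by
    have := v.2
    rw [Submodule.mem_torsionBy_iff] at this
    rw [← this, Nat.cast_smul_eq_nsmul]
  apply Subtype.ext
  exact hCH v hv

theorem quadAux_smul_eq (W : WeierstrassCurve ℤ) (σ τ : GQ)
    (P : ((W.map (Int.castRingHom ℚ))⁄Qbar).Point)
    (hx : σ (Fermat.Agent.S05.XOnly.xc P) = τ (Fermat.Agent.S05.XOnly.xc P))
    (hy : σ (Fermat.Agent.S05.XOnly.yc P) = τ (Fermat.Agent.S05.XOnly.yc P)) :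
    σ • P = τ • P := by
  cases P with
  | zero => rfl
  | some x y h =>
    have hx' : σ x = τ x := hx
    have hy' : σ y = τ y := hy
    rw [algEquiv_smul_def, algEquiv_smul_def, Point.map_some, Point.map_some]
    simp only [Point.some.injEq]
    exact ⟨hx', hy'⟩

theorem quadAux_relation (W : WeierstrassCurve ℤ) (hWΔ : W.Δ ≠ 0) {p : ℕ} [Fact p.Prime]
    (S : Finset ℕ)
    (hall : ∀ ℓ : ℕ, ℓ.Prime → ℓ ∉ S → W.IsGoodPrimeFor ℓ →
      (p : ℤ) ∣ ((ℓ : ℤ) + 1 - W.apOfModel ℓ))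
    (hfin : {P : ((W.map (Int.castRingHom ℚ))⁄Qbar).Point | p • P = 0}.Finite)
    (hCH : ∀ ℓ : ℕ, ℓ.Prime → 5 ≤ ℓ → ¬ ℓ ∣ p → W.IsGoodPrimeFor ℓ →
      ∀ A : ValuationSubring Qbar, A.LiesOverPrime ℓ → ∀ φ : GQ, A.IsFrobeniusAt φ ℓ →
      ∀ P : ((W.map (Int.castRingHom ℚ))⁄Qbar).Point, p • P = 0 →
        φ • φ • P - W.apOfModel ℓ • φ • P + (ℓ : ℤ) • P = 0)
    (σ : GQ) (v : Submodule.torsionBy ℤ ((W.map (Int.castRingHom ℚ))⁄Qbar).Point p) :
    σ • σ • v - ((1 : ZMod p) + (Fermat.Agent.S29.Cyclo.cyc p σ : ZMod p)) • σ • v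
      + (Fermat.Agent.S29.Cyclo.cyc p σ : ZMod p) • v = 0 := by
  have hp : p.Prime := Fact.out
  -- the field of definition
  set T : Set ((W.map (Int.castRingHom ℚ))⁄Qbar).Point := {P | p • P = 0} with hT
  let X : Set Qbar := Fermat.Agent.S05.XOnly.xc '' T ∪ Fermat.Agent.S05.XOnly.yc '' T
  have hX : X.Finite := (hfin.image _).union (hfin.image _)
  have : Finite X := hX.to_subtype
  have h1 : FiniteDimensional ℚ (IntermediateField.adjoin ℚ X) :=
    IntermediateField.finiteDimensional_adjoin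
      (fun x _ => ((AlgebraicClosure.isAlgebraic ℚ).isAlgebraic x).isIntegral)
  have h2 : FiniteDimensional ℚ (Fermat.Agent.S29.Cyclo.cycField p) :=
    Fermat.Agent.S29.Cyclo.cycField_finite p
  let L : IntermediateField ℚ Qbar :=
    Fermat.Agent.S29.Cyclo.cycField p ⊔ IntermediateField.adjoin ℚ X
  have h3 : FiniteDimensional ℚ L := IntermediateField.finiteDimensional_sup _ _
  obtain ⟨ℓ, A, φ, a, b, hℓ, hℓS, hA, hφ, -, hb⟩ :=
    Fermat.Agent.Lib.FrobDensity.exists_frobenius_generator L σ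
      (S ∪ {2, 3, p} ∪ W.Δ.natAbs.primeFactors)
  simp only [Finset.mem_union, Finset.mem_insert, Finset.mem_singleton, not_or] at hℓS
  obtain ⟨⟨hS, h2', h3', hℓp⟩, hΔ⟩ := hℓS
  have h5 : 5 ≤ ℓ := by
    have := hℓ.two_le
    by_contra hlt
    have h4 : ℓ = 4 := by omega
    rw [h4] at hℓ
    exact absurd hℓ (by norm_num)
  have hnd : ¬ ℓ ∣ p := fun h => hℓp ((Nat.prime_dvd_prime_iff_eq hℓ hp).mp h)
  have hgood : W.IsGoodPrimeFor ℓ := by
    intro hd
    apply hΔ
    rw [Nat.mem_primeFactors]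
    exact ⟨hℓ, Int.natCast_dvd.mp hd, Int.natAbs_ne_zero.mpr hWΔ⟩
  -- the relation for `φ`
  have hrel := quadAux_frob W φ (hall ℓ hℓ hS hgood) (hCH ℓ hℓ h5 hnd hgood A hA φ hφ)
  let F : Module.End (ZMod p) (Submodule.torsionBy ℤ ((W.map (Int.castRingHom ℚ))⁄Qbar).Point p) :=
    galoisRepModuleEnd ℚ (W.map (Int.castRingHom ℚ)).toAffine p φ
  have hF : (F - 1) * (F - algebraMap (ZMod p) _ (ℓ : ZMod p)) = 0 := by
    apply LinearMap.ext
    intro w
    rw [quadAux_expand]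
    exact hrel w
  have hFb := pow_quadratic F (ℓ : ZMod p) hF b
  -- `φ ^ b` and `σ`
  have hact : ∀ w : Submodule.torsionBy ℤ ((W.map (Int.castRingHom ℚ))⁄Qbar).Point p,
      (F ^ b) w = σ • w := by
    intro w
    have h6 : F ^ b = galoisRepModuleEnd ℚ (W.map (Int.castRingHom ℚ)).toAffine p (φ ^ b) :=
      (map_pow _ _ _).symm
    rw [h6, galoisRepModuleEnd_apply]
    apply Subtype.ext
    have hw : (w : ((W.map (Int.castRingHom ℚ))⁄Qbar).Point) ∈ T := by
      have := w.2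
      rw [Submodule.mem_torsionBy_iff] at this
      show p • (w : ((W.map (Int.castRingHom ℚ))⁄Qbar).Point) = 0
      rw [← this, Nat.cast_smul_eq_nsmul]
    apply quadAux_smul_eq
    · apply hb
      apply (le_sup_right : IntermediateField.adjoin ℚ X ≤ L)
      exact IntermediateField.subset_adjoin ℚ _ (Or.inl ⟨_, hw, rfl⟩)
    · apply hb
      apply (le_sup_right : IntermediateField.adjoin ℚ X ≤ L)
      exact IntermediateField.subset_adjoin ℚ _ (Or.inr ⟨_, hw, rfl⟩)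
  have hcyc : (Fermat.Agent.S29.Cyclo.cyc p σ : ZMod p) = (ℓ : ZMod p) ^ b := by
    have h7 : Fermat.Agent.S29.Cyclo.cyc p (σ⁻¹ * φ ^ b) = 1 := by
      apply Fermat.Agent.S29.Cyclo.cyc_eq_one_of_fixes
      intro x hx
      have h8 := hb x ((le_sup_left : Fermat.Agent.S29.Cyclo.cycField p ≤ L) hx)
      rw [AlgEquiv.mul_apply, h8]
      exact σ.symm_apply_apply x
    rw [map_mul, map_inv, inv_mul_eq_one, map_pow] at h7
    rw [h7, Units.val_pow_eq_pow_val, Fermat.Agent.S29.Cyclo.cyc_frob p hℓ hℓp A hA hφ]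
  have h9 := LinearMap.congr_fun hFb v
  rw [quadAux_expand, hact, hact, ← hcyc] at h9
  exact h9

end Fermat.Agent.S41.A
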