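import Mathlib
import Fermat.Agent.S05.XOnly
import Fermat.Agent.S41.A.Defs

/-!
# S41, block A, node N3a-2: the reduction homomorphism on the `n`-torsion (core, modulo N3a-1)
(skeleton: helper188, proof: helper21)
-/

set_option autoImplicit false

open WeierstrassCurve WeierstrassCurve.Affine

namespace Fermat.Agent.S41.A

theorem redHom_some_congr {F : Type*} [CommRing F] {V : WeierstrassCurve.Affine F} {x x' y y' : F}
    (hx : x = x') (hy : y = y') (h : V.Nonsingular x y) (h' : V.Nonsingular x' y') :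
    (Point.some x y h : V.Point) = Point.some x' y' h' := by
  subst hx hy
  rfl

theorem redHom_ne_of_isUnit {R F : Type*} [CommRing R] [Field F] (f : R →+* F) {a b : R}
    (h : IsUnit (a - b)) : f a ≠ f b := by
  intro h1
  rw [← sub_eq_zero, ← map_sub] at h1
  exact (h.map f).ne_zero h1

section one

variable {R F : Type*} [CommRing R] [Field F] [DecidableEq F] (W : WeierstrassCurve R)
  (f : R →+* F)

theorem redHom_add_of_slope {a₁ a₂ b₁ b₂ ℓ : R}
    (h₁ : (W.map f).toAffine.Nonsingular (f a₁) (f b₁))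
    (h₂ : (W.map f).toAffine.Nonsingular (f a₂) (f b₂))
    (hxy : ¬ (f a₁ = f a₂ ∧ f b₁ = (W.map f).toAffine.negY (f a₂) (f b₂)))
    (hℓ : (W.map f).toAffine.slope (f a₁) (f a₂) (f b₁) (f b₂) = f ℓ) :
    ∃ h : (W.map f).toAffine.Nonsingular (f (W.toAffine.addX a₁ a₂ ℓ))
        (f (W.toAffine.addY a₁ a₂ b₁ ℓ)),
      (Point.some _ _ h₁ + Point.some _ _ h₂ : (W.map f).toAffine.Point) = Point.some _ _ h := by
  have h3 := nonsingular_add h₁ h₂ hxy
  have e1 : (W.map f).toAffine.addX (f a₁) (f a₂)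
      ((W.map f).toAffine.slope (f a₁) (f a₂) (f b₁) (f b₂)) = f (W.toAffine.addX a₁ a₂ ℓ) := by
    rw [hℓ]
    exact map_addX f a₁ a₂ ℓ
  have e2 : (W.map f).toAffine.addY (f a₁) (f a₂) (f b₁)
      ((W.map f).toAffine.slope (f a₁) (f a₂) (f b₁) (f b₂)) =
        f (W.toAffine.addY a₁ a₂ b₁ ℓ) := by
    rw [hℓ]
    exact map_addY f a₁ b₁ a₂ ℓ
  refine ⟨by rw [← e1, ← e2]; exact h3, ?_⟩
  rw [Point.add_some hxy]
  exact redHom_some_congr e1 e2 _ _

theorem redHom_slope_X {a₁ a₂ b₁ b₂ ℓ : R} (hne : f a₁ ≠ f a₂) (hℓ : ℓ * (a₁ - a₂) = b₁ - b₂) :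
    (W.map f).toAffine.slope (f a₁) (f a₂) (f b₁) (f b₂) = f ℓ := by
  rw [slope_of_X_ne hne, div_eq_iff (sub_ne_zero.2 hne), ← map_sub, ← map_sub, ← map_mul, hℓ]

theorem redHom_slope_Y {a b ℓ : R} (hne : f b ≠ (W.map f).toAffine.negY (f a) (f b))
    (hℓ : ℓ * (b - W.toAffine.negY a b) = 3 * a ^ 2 + 2 * W.a₂ * a + W.a₄ - W.a₁ * b) :
    (W.map f).toAffine.slope (f a) (f a) (f b) (f b) = f ℓ := by
  rw [slope_of_Y_ne rfl hne, div_eq_iff (sub_ne_zero.2 hne)]
  have h1 : (W.map f).toAffine.negY (f a) (f b) = f (W.toAffine.negY a b) := map_negY f a b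
  rw [h1, ← map_sub, ← map_mul, hℓ]
  simp [map_ofNat]

end one

section two

variable {R K k : Type*} [CommRing R] [Field K] [Field k] (W : WeierstrassCurve R)
  (φ : R →+* K) (ψ : R →+* k)

variable {W φ ψ} in
theorem redHom_nonsingular (hφ : Function.Injective φ) (hΔ : (W.map ψ).Δ ≠ 0) {a b : R}
    (h : (W.map φ).toAffine.Nonsingular (φ a) (φ b)) :
    (W.map ψ).toAffine.Nonsingular (ψ a) (ψ b) := by
  rw [← (W.map ψ).toAffine.equation_iff_nonsingular_of_Δ_ne_zero hΔ]
  exact Equation.map ψ ((map_equation W hφ a b).1 h.1)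

open Classical in
/-- the reduction map on points with coordinates in `R` (junk value `0` elsewhere) -/
noncomputable def redHomFun (P : (W.map φ).toAffine.Point) : (W.map ψ).toAffine.Point :=
  if h : ∃ (a b : R) (_ : (W.map ψ).toAffine.Nonsingular (ψ a) (ψ b))
      (hP : (W.map φ).toAffine.Nonsingular (φ a) (φ b)), P = Point.some _ _ hP
  then Point.some _ _ h.choose_spec.choose_spec.choose else 0

theorem redHomFun_zero : redHomFun W φ ψ 0 = 0 := by
  rw [redHomFun, dif_neg]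
  rintro ⟨a, b, h0, hP, h⟩
  exact Point.some_ne_zero _ h.symm

variable {φ} in
theorem redHomFun_some (hφ : Function.Injective φ) {a b : R}
    (hP : (W.map φ).toAffine.Nonsingular (φ a) (φ b))
    (h0 : (W.map ψ).toAffine.Nonsingular (ψ a) (ψ b)) :
    redHomFun W φ ψ (Point.some _ _ hP) = Point.some _ _ h0 := by
  have h : ∃ (a' b' : R) (_ : (W.map ψ).toAffine.Nonsingular (ψ a') (ψ b'))
      (hP' : (W.map φ).toAffine.Nonsingular (φ a') (φ b')),
      (Point.some _ _ hP : (W.map φ).toAffine.Point) = Point.some _ _ hP' := ⟨a, b, h0, hP, rfl⟩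
  rw [redHomFun, dif_pos h]
  obtain ⟨hP', e⟩ := h.choose_spec.choose_spec.choose_spec
  rw [Point.some.injEq] at e
  have e1 : a = h.choose := hφ e.1
  have e2 : b = h.choose_spec.choose := hφ e.2
  exact redHom_some_congr (by rw [← e1]) (by rw [← e2]) _ _

variable [DecidableEq K] [DecidableEq k]

/-- `P` is the origin or has coordinates in `R`. -/
def RedHomInt (P : (W.map φ).toAffine.Point) : Prop :=
  P = 0 ∨ ∃ (a b : R) (h : (W.map φ).toAffine.Nonsingular (φ a) (φ b)), P = Point.some _ _ h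

variable {W φ} in
theorem redHomFun_add (hφ : Function.Injective φ) (hΔ : (W.map ψ).Δ ≠ 0)
    {P Q : (W.map φ).toAffine.Point} (hP : RedHomInt W φ P) (hQ : RedHomInt W φ Q)
    (H2 : ∀ (a₁ b₁ a₂ b₂ : R) (h₁ : (W.map φ).toAffine.Nonsingular (φ a₁) (φ b₁))
      (h₂ : (W.map φ).toAffine.Nonsingular (φ a₂) (φ b₂)), P = Point.some _ _ h₁ →
      Q = Point.some _ _ h₂ → a₁ ≠ a₂ → IsUnit (a₁ - a₂))
    (H3 : ∀ (a b : R) (h : (W.map φ).toAffine.Nonsingular (φ a) (φ b)), P = Point.some _ _ h →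
      IsUnit (b - W.toAffine.negY a b)) :
    redHomFun W φ ψ (P + Q) = redHomFun W φ ψ P + redHomFun W φ ψ Q := by
  rcases hP with rfl | ⟨a₁, b₁, h₁, rfl⟩
  · rw [redHomFun_zero, zero_add, zero_add]
  rcases hQ with rfl | ⟨a₂, b₂, h₂, rfl⟩
  · rw [redHomFun_zero, add_zero, add_zero]
  have h₁' := redHom_nonsingular hφ hΔ h₁
  have h₂' := redHom_nonsingular hφ hΔ h₂
  rw [redHomFun_some W ψ hφ h₁ h₁', redHomFun_some W ψ hφ h₂ h₂']
  by_cases hx : a₁ = a₂
  · subst hx
    have hu := H3 a₁ b₁ h₁ rfl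
    by_cases hy : b₁ = W.toAffine.negY a₁ b₂
    · -- opposite points
      have e1 : (Point.some _ _ h₁ + Point.some _ _ h₂ : (W.map φ).toAffine.Point) = 0 := by
        apply Point.add_of_Y_eq rfl
        rw [hy]
        exact (map_negY φ a₁ b₂).symm
      have e2 : (Point.some _ _ h₁' + Point.some _ _ h₂' : (W.map ψ).toAffine.Point) = 0 := by
        apply Point.add_of_Y_eq rfl
        rw [hy]
        exact (map_negY ψ a₁ b₂).symm
      rw [e1, e2, redHomFun_zero]
    · -- doubling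
      have hb : b₁ = b₂ := by
        have h3 := Y_eq_of_Y_ne h₁.1 h₂.1 rfl (by
          intro h
          apply hy
          apply hφ
          rw [h]
          exact map_negY φ a₁ b₂)
        exact hφ h3
      subst hb
      have hu0 := hu
      obtain ⟨u, hu⟩ := hu
      set ℓ : R := (3 * a₁ ^ 2 + 2 * W.a₂ * a₁ + W.a₄ - W.a₁ * b₁) * ((u⁻¹ : Rˣ) : R) with hℓdef
      have hℓ : ℓ * (b₁ - W.toAffine.negY a₁ b₁) =
          3 * a₁ ^ 2 + 2 * W.a₂ * a₁ + W.a₄ - W.a₁ * b₁ := by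
        rw [hℓdef, ← hu, mul_assoc, Units.inv_mul, mul_one]
      have hne1 : φ b₁ ≠ (W.map φ).toAffine.negY (φ a₁) (φ b₁) := by
        have h4 : (W.map φ).toAffine.negY (φ a₁) (φ b₁) = φ (W.toAffine.negY a₁ b₁) :=
          map_negY φ a₁ b₁
        rw [h4]
        exact redHom_ne_of_isUnit φ hu0
      have hne2 : ψ b₁ ≠ (W.map ψ).toAffine.negY (ψ a₁) (ψ b₁) := by
        have h4 : (W.map ψ).toAffine.negY (ψ a₁) (ψ b₁) = ψ (W.toAffine.negY a₁ b₁) :=
          map_negY ψ a₁ b₁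
        rw [h4]
        exact redHom_ne_of_isUnit ψ hu0
      obtain ⟨g, hg⟩ := redHom_add_of_slope W φ h₁ h₁ (fun h => hne1 h.2)
        (redHom_slope_Y W φ hne1 hℓ)
      obtain ⟨g', hg'⟩ := redHom_add_of_slope W ψ h₁' h₁' (fun h => hne2 h.2)
        (redHom_slope_Y W ψ hne2 hℓ)
      rw [hg, hg', redHomFun_some W ψ hφ g g']
  · have hu0 := H2 a₁ b₁ a₂ b₂ h₁ h₂ rfl rfl hx
    obtain ⟨u, hu⟩ := hu0
    set ℓ : R := (b₁ - b₂) * ((u⁻¹ : Rˣ) : R) with hℓdef
    have hℓ : ℓ * (a₁ - a₂) = b₁ - b₂ := by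
      rw [hℓdef, ← hu, mul_assoc, Units.inv_mul, mul_one]
    have hne1 : φ a₁ ≠ φ a₂ := redHom_ne_of_isUnit φ (hu ▸ u.isUnit)
    have hne2 : ψ a₁ ≠ ψ a₂ := redHom_ne_of_isUnit ψ (hu ▸ u.isUnit)
    obtain ⟨g, hg⟩ := redHom_add_of_slope W φ h₁ h₂ (fun h => hne1 h.1)
      (redHom_slope_X W φ hne1 hℓ)
    obtain ⟨g', hg'⟩ := redHom_add_of_slope W ψ h₁' h₂' (fun h => hne2 h.1)
      (redHom_slope_X W ψ hne2 hℓ)
    rw [hg, hg', redHomFun_some W ψ hφ g g']

end two

section three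

variable {K : Type*} [Field K] (A : ValuationSubring K)

/-- the integral model of a curve with a reduction -/
def redHomModel {W₁ : WeierstrassCurve K} {W₂ : WeierstrassCurve (IsLocalRing.ResidueField A)}
    (hW : IsRed A W₁ W₂) : WeierstrassCurve A :=
  ⟨⟨W₁.a₁, hW.a₁.choose⟩, ⟨W₁.a₂, hW.a₂.choose⟩, ⟨W₁.a₃, hW.a₃.choose⟩, ⟨W₁.a₄, hW.a₄.choose⟩,
    ⟨W₁.a₆, hW.a₆.choose⟩⟩

theorem redHomModel_map_subtype {W₁ : WeierstrassCurve K}
    {W₂ : WeierstrassCurve (IsLocalRing.ResidueField A)} (hW : IsRed A W₁ W₂) :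
    (redHomModel A hW).map A.subtype = W₁ := by
  ext <;> rfl

theorem redHomModel_map_residue {W₁ : WeierstrassCurve K}
    {W₂ : WeierstrassCurve (IsLocalRing.ResidueField A)} (hW : IsRed A W₁ W₂) :
    (redHomModel A hW).map (IsLocalRing.residue A) = W₂ := by
  ext
  · exact hW.a₁.choose_spec
  · exact hW.a₂.choose_spec
  · exact hW.a₃.choose_spec
  · exact hW.a₄.choose_spec
  · exact hW.a₆.choose_spec

/-- the conclusion of node N3a-1 -/
def RedHomUnits [DecidableEq K] (W : Affine K) (n : ℕ) : Prop :=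
  (∀ P : W.Point, n • P = 0 →
    A.valuation (Fermat.Agent.S05.XOnly.xc P) ≤ 1 ∧
      A.valuation (Fermat.Agent.S05.XOnly.yc P) ≤ 1) ∧
  (∀ P Q : W.Point, n • P = 0 → n • Q = 0 → P ≠ 0 → Q ≠ 0 → P ≠ Q → P ≠ -Q →
    A.valuation (Fermat.Agent.S05.XOnly.xc P - Fermat.Agent.S05.XOnly.xc Q) = 1) ∧
  (∀ P : W.Point, n • P = 0 → P ≠ 0 →
    A.valuation (2 * Fermat.Agent.S05.XOnly.yc P + W.a₁ * Fermat.Agent.S05.XOnly.xc P + W.a₃) = 1)

variable [DecidableEq K] [DecidableEq (IsLocalRing.ResidueField A)]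

theorem exists_red_model (WA : WeierstrassCurve A)
    (hΔ : (WA.map (IsLocalRing.residue A)).Δ ≠ 0) {n : ℕ}
    (hU : RedHomUnits A (WA.map A.subtype).toAffine n) :
    ∃ r : Submodule.torsionBy ℤ (WA.map A.subtype).toAffine.Point (n : ℤ) →+
        (WA.map (IsLocalRing.residue A)).toAffine.Point,
      Function.Injective r ∧
      ∀ (x y : K) (h : (WA.map A.subtype).toAffine.Nonsingular x y)
        (hP : (Point.some x y h : (WA.map A.subtype).toAffine.Point) ∈
          Submodule.torsionBy ℤ (WA.map A.subtype).toAffine.Point (n : ℤ)),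
        ∃ (hx : x ∈ A) (hy : y ∈ A)
          (h' : (WA.map (IsLocalRing.residue A)).toAffine.Nonsingular
            (IsLocalRing.residue A ⟨x, hx⟩) (IsLocalRing.residue A ⟨y, hy⟩)),
          r ⟨Point.some x y h, hP⟩ = Point.some _ _ h' := by
  obtain ⟨U1, U2, U3⟩ := hU
  have hφ : Function.Injective A.subtype := Subtype.val_injective
  have htor : ∀ P : (WA.map A.subtype).toAffine.Point,
      P ∈ Submodule.torsionBy ℤ (WA.map A.subtype).toAffine.Point (n : ℤ) → n • P = 0 := by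
    intro P hP
    rw [Submodule.mem_torsionBy_iff, natCast_zsmul] at hP
    exact hP
  have hmem : ∀ (x y : K) (h : (WA.map A.subtype).toAffine.Nonsingular x y),
      n • (Point.some x y h : (WA.map A.subtype).toAffine.Point) = 0 → x ∈ A ∧ y ∈ A := by
    intro x y h hP
    obtain ⟨hx, hy⟩ := U1 _ hP
    exact ⟨(A.valuation_le_one_iff x).1 hx, (A.valuation_le_one_iff y).1 hy⟩
  have hint : ∀ P : (WA.map A.subtype).toAffine.Point, n • P = 0 →
      RedHomInt WA A.subtype P := by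
    intro P hP
    rcases P with _ | ⟨x, y, h⟩
    · exact Or.inl rfl
    · obtain ⟨hx, hy⟩ := hmem x y h hP
      exact Or.inr ⟨⟨x, hx⟩, ⟨y, hy⟩, h, rfl⟩
  have hadd : ∀ P Q : (WA.map A.subtype).toAffine.Point, n • P = 0 → n • Q = 0 →
      redHomFun WA A.subtype (IsLocalRing.residue A) (P + Q) =
        redHomFun WA A.subtype (IsLocalRing.residue A) P +
          redHomFun WA A.subtype (IsLocalRing.residue A) Q := by
    intro P Q hP hQ
    refine redHomFun_add (IsLocalRing.residue A) hφ hΔ (hint P hP) (hint Q hQ) ?_ ?_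
    · rintro a₁ b₁ a₂ b₂ h₁ h₂ rfl rfl hne
      have hne' : (a₁ : K) ≠ (a₂ : K) := fun h => hne (Subtype.ext h)
      have h3 := U2 _ _ hP hQ (Point.some_ne_zero _) (Point.some_ne_zero _)
        (by
          intro h
          rw [Point.some.injEq] at h
          exact hne' h.1)
        (by
          intro h
          rw [Point.neg_some, Point.some.injEq] at h
          exact hne' h.1)
      rw [A.valuation_eq_one_iff]
      exact h3
    · rintro a b h rfl
      have h3 := U3 _ hP (Point.some_ne_zero _)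
      rw [A.valuation_eq_one_iff]
      have h4 : ((b - WA.toAffine.negY a b : A) : K) =
          2 * (b : K) + (WA.map A.subtype).a₁ * (a : K) + (WA.map A.subtype).a₃ := by
        rw [Affine.negY]
        simp only [WeierstrassCurve.map_a₁, WeierstrassCurve.map_a₃]
        push_cast
        simp only [ValuationSubring.subtype_apply]
        ring
      rw [h4]
      exact h3
  let r : Submodule.torsionBy ℤ (WA.map A.subtype).toAffine.Point (n : ℤ) →+
      (WA.map (IsLocalRing.residue A)).toAffine.Point :=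
    AddMonoidHom.mk' (fun P => redHomFun WA A.subtype (IsLocalRing.residue A) P.1)
      (fun P Q => hadd P.1 Q.1 (htor _ P.2) (htor _ Q.2))
  refine ⟨r, ?_, ?_⟩
  · rw [injective_iff_map_eq_zero]
    rintro ⟨P, hP⟩ h0
    rcases P with _ | ⟨x, y, h⟩
    · rfl
    · exfalso
      obtain ⟨hx, hy⟩ := hmem x y h (htor _ hP)
      have h' : (WA.map A.subtype).toAffine.Nonsingular (A.subtype ⟨x, hx⟩) (A.subtype ⟨y, hy⟩) := h
      have h1 : redHomFun WA A.subtype (IsLocalRing.residue A) (Point.some _ _ h') = 0 := h0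
      rw [redHomFun_some WA (IsLocalRing.residue A) hφ h' (redHom_nonsingular hφ hΔ h')] at h1
      exact Point.some_ne_zero _ h1
  · intro x y h hP
    obtain ⟨hx, hy⟩ := hmem x y h (htor _ hP)
    have h' : (WA.map A.subtype).toAffine.Nonsingular (A.subtype ⟨x, hx⟩) (A.subtype ⟨y, hy⟩) := h
    exact ⟨hx, hy, redHom_nonsingular hφ hΔ h',
      redHomFun_some WA (IsLocalRing.residue A) hφ h' _⟩

theorem exists_red_of_eq (WA : WeierstrassCurve A) {W₁ : WeierstrassCurve K}
    {W₂ : WeierstrassCurve (IsLocalRing.ResidueField A)} (e₁ : WA.map A.subtype = W₁)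
    (e₂ : WA.map (IsLocalRing.residue A) = W₂) (hΔ : W₂.Δ ≠ 0) {n : ℕ}
    (hU : RedHomUnits A W₁.toAffine n) :
    ∃ r : Submodule.torsionBy ℤ W₁.toAffine.Point (n : ℤ) →+ W₂.toAffine.Point,
      Function.Injective r ∧
      ∀ (x y : K) (h : W₁.toAffine.Nonsingular x y)
        (hP : (Point.some x y h : W₁.toAffine.Point) ∈
          Submodule.torsionBy ℤ W₁.toAffine.Point (n : ℤ)),
        ∃ (hx : x ∈ A) (hy : y ∈ A)
          (h' : W₂.toAffine.Nonsingular (IsLocalRing.residue A ⟨x, hx⟩)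
            (IsLocalRing.residue A ⟨y, hy⟩)),
          r ⟨Point.some x y h, hP⟩ = Point.some _ _ h' := by
  subst e₁ e₂
  exact exists_red_model A WA hΔ hU

/-- the valuation of the discriminant is one -/
theorem redHom_valuation_Δ {W₁ : WeierstrassCurve K}
    {W₂ : WeierstrassCurve (IsLocalRing.ResidueField A)} (hW : IsRed A W₁ W₂) (hΔ : W₂.Δ ≠ 0) :
    A.valuation W₁.Δ = 1 := by
  have e₁ := redHomModel_map_subtype A hW
  have e₂ := redHomModel_map_residue A hW
  rw [← e₂, WeierstrassCurve.map_Δ] at hΔ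
  rw [← e₁, WeierstrassCurve.map_Δ]
  have hu : IsUnit (redHomModel A hW).Δ := by
    by_contra hn
    exact hΔ ((IsLocalRing.residue_eq_zero_iff _).2 ((IsLocalRing.mem_maximalIdeal _).2 hn))
  exact (A.valuation_eq_one_iff _).1 hu

/-- N3a-2 with the conclusion of N3a-1 as a hypothesis -/
theorem exists_red_of_units {W₁ : WeierstrassCurve K}
    {W₂ : WeierstrassCurve (IsLocalRing.ResidueField A)} (hW : IsRed A W₁ W₂) (hΔ : W₂.Δ ≠ 0)
    {n : ℕ} (hU : RedHomUnits A W₁.toAffine n) :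
    ∃ r : Submodule.torsionBy ℤ W₁.toAffine.Point (n : ℤ) →+ W₂.toAffine.Point,
      Function.Injective r ∧
      ∀ (x y : K) (h : W₁.toAffine.Nonsingular x y)
        (hP : (Point.some x y h : W₁.toAffine.Point) ∈
          Submodule.torsionBy ℤ W₁.toAffine.Point (n : ℤ)),
        ∃ (hx : x ∈ A) (hy : y ∈ A)
          (h' : W₂.toAffine.Nonsingular (IsLocalRing.residue A ⟨x, hx⟩)
            (IsLocalRing.residue A ⟨y, hy⟩)),
          r ⟨Point.some x y h, hP⟩ = Point.some _ _ h' :=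
  exists_red_of_eq A (redHomModel A hW) (redHomModel_map_subtype A hW)
    (redHomModel_map_residue A hW) hΔ hU

end three

end Fermat.Agent.S41.A
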